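import Fermat.Agent.EichlerShimura.Main
import Fermat.Agent.Red.Existence
import Fermat.Agent.Red.SameDegree

/-!
# Specialisation from good reduction of the genus

`SpecializationExists` for `J₀(N)` from the genus inequality modulo `ℓ`; `Fermat.Agent.S37` supplies
that inequality.
-/

noncomputable section

namespace Fermat.Agent.EichlerShimura

open AlgebraicCurve ModularCurve

/-- The congruence relation in the prelude's packaged form, from good reduction of the genus. -/
theorem specializationExists_of_genus_le (N p : ℕ) [NeZero N] (hcomm : HeckeOperatorsCommuteBar N)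
    (hgenus : ∀ ℓ : ℕ, ℓ.Prime → ¬ ℓ ∣ N → ∀ A : ValuationSubring (AlgebraicClosure ℚ),
      A.LiesOverPrime ℓ → genusFF (AlgebraicClosure ℚ) (modularFunctionFieldBar N) ≤
        genusFF (IsLocalRing.ResidueField A)
          (modularFunctionFieldFullC (IsLocalRing.ResidueField A) N)) :
    letI := heckeModuleBar N
    ∀ (_ : SMulCommClass (AlgebraicClosure ℚ ≃ₐ[ℚ] AlgebraicClosure ℚ) HeckeAlg (JZero N)),
      SpecializationExists (K := ℚ) (L := AlgebraicClosure ℚ) N p (JZero N) :=
  specializationExists_of N p hcomm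
    (fun ℓ hℓ hℓN A hA =>
      haveI : Fact ℓ.Prime := ⟨hℓ⟩
      Red.reductionInputsModL_of_genus_le hℓN hA (hgenus ℓ hℓ hℓN A hA))
    (fun ℓ hℓ hℓN A hA h m hm z hmz hz =>
      haveI : Fact ℓ.Prime := ⟨hℓ⟩
      Red.eq_zero_of_reductionModL_eq_zero_of_genus_le N hℓN A hA (hgenus ℓ hℓ hℓN A hA) h m hm z
        hmz hz)

end Fermat.Agent.EichlerShimura
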