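import Mathlib.Algebra.Order.Group.Abs
import Mathlib.Algebra.Order.Ring.Abs
import Mathlib.Tactic.Linarith
import Mathlib.Tactic.Ring
import Fermat.Prelude.Def_AlgebraicCurve_DivisorClassGroup

/-!
# Rigidity of additive maps on divisors

An additive map to a free abelian group which is bounded on places and kills principal divisors
kills all divisors of degree zero, as soon as every class of degree zero has a representative of
bounded size. This replaces geometry in the proof of the Eichler–Shimura congruence.
-/

noncomputable section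

namespace Fermat.Agent.EichlerShimura

open AlgebraicCurve

/-- The sum of the absolute values of the coefficients. -/
def absSum {ι : Type*} (D : ι →₀ ℤ) : ℕ := D.sum fun _ n => n.natAbs

/-- A coefficient is at most the sum of all. -/
theorem natAbs_le_absSum {ι : Type*} (D : ι →₀ ℤ) (i : ι) : (D i).natAbs ≤ absSum D := by
  by_cases h : i ∈ D.support
  · exact Finset.single_le_sum (f := fun j => (D j).natAbs) (fun j _ => Nat.zero_le _) h
  · simp [Finsupp.notMem_support_iff.mp h]

/-- `absSum` may be summed over any set containing the support. -/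
theorem absSum_eq_sum {ι : Type*} {D : ι →₀ ℤ} {s : Finset ι} (h : D.support ⊆ s) :
    absSum D = ∑ i ∈ s, (D i).natAbs :=
  Finsupp.sum_of_support_subset D h _ fun _ _ => rfl

theorem absSum_single {ι : Type*} (i : ι) (n : ℤ) : absSum (Finsupp.single i n) = n.natAbs :=
  Finsupp.sum_single_index rfl

/-- The triangle inequality for `absSum`. -/
theorem absSum_sub_le {ι : Type*} (D E : ι →₀ ℤ) : absSum (D - E) ≤ absSum D + absSum E := by
  classical
  rw [absSum_eq_sum (D := D - E) Finsupp.support_sub,
    absSum_eq_sum (D := D) Finset.subset_union_left,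
    absSum_eq_sum (D := E) Finset.subset_union_right, ← Finset.sum_add_distrib]
  exact Finset.sum_le_sum fun i _ => by rw [Finsupp.sub_apply]; exact Int.natAbs_sub_le _ _

/-- A bound on the values at places bounds the values at all divisors. -/
theorem natAbs_apply_le_of_bound {ι κ : Type*} (ψ : (ι →₀ ℤ) →+ (κ →₀ ℤ)) (c : ℕ)
    (hψ : ∀ P i, (ψ (Finsupp.single P 1) i).natAbs ≤ c) (D : ι →₀ ℤ) (i : κ) :
    (ψ D i).natAbs ≤ c * absSum D := by
  classical
  conv_lhs => rw [← D.sum_single]
  rw [Finsupp.sum, map_sum, Finsupp.finsetSum_apply]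
  refine le_trans (Int.natAbs_sum_le _ _) ?_
  rw [absSum, Finsupp.sum, Finset.mul_sum]
  refine Finset.sum_le_sum fun P _ => ?_
  have h : Finsupp.single P (D P) = D P • Finsupp.single P (1 : ℤ) := by simp
  rw [h, map_zsmul, Finsupp.smul_apply, smul_eq_mul, Int.natAbs_mul, mul_comm]
  exact Nat.mul_le_mul_right _ (hψ P i)

/-- An additive map into a free abelian group with bounded image is zero. -/
theorem eq_zero_of_bounded {G κ : Type*} [AddCommGroup G] (φ : G →+ (κ →₀ ℤ)) (B : ℕ)
    (h : ∀ g i, (φ g i).natAbs ≤ B) : φ = 0 := by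
  refine AddMonoidHom.ext fun g => Finsupp.ext fun i => ?_
  by_contra hne
  have h1 := h (((B + 1 : ℕ) : ℤ) • g) i
  rw [map_zsmul, Finsupp.smul_apply, smul_eq_mul, Int.natAbs_mul, Int.natAbs_natCast] at h1
  have h2 : 1 ≤ (φ g i).natAbs := Int.natAbs_pos.mpr hne
  have : B + 1 ≤ B := le_trans (by simpa using Nat.mul_le_mul_left (B + 1) h2) h1
  omega

variable (K F : Type*) [Field K] [Field F] [Algebra K F]

/-- Every divisor class of degree zero has a representative of bounded size. -/
def BoundedClasses : Prop :=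
  ∃ B : ℕ, ∀ D ∈ Divisor.degZero (K := K) (F := F), ∃ D' : Divisor K F,
    D - D' ∈ Divisor.principal (K := K) (F := F) ∧ absSum D' ≤ B

variable {K F}

/-- The degree of an effective divisor on rational places is its `absSum`. -/
theorem degree_eq_absSum (hdeg : ∀ P : Place K F, P.deg = 1) {E : Divisor K F}
    (hE : ∀ P, 0 ≤ E P) : Divisor.degree E = (absSum E : ℤ) := by
  conv_lhs => rw [← E.sum_single]
  rw [absSum, Finsupp.sum, Finsupp.sum, map_sum, Nat.cast_sum]
  refine Finset.sum_congr rfl fun Q _ => ?_
  rw [Divisor.degree_single, hdeg, Int.natAbs_of_nonneg (hE Q)]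
  simp

/-- Riemann's theorem in the form "large degree implies effective class" bounds the classes of
degree zero. -/
theorem boundedClasses_of_exists_effective (hdeg : ∀ P : Place K F, P.deg = 1)
    (hprin : ∀ D ∈ Divisor.principal (K := K) (F := F), Divisor.degree D = 0) (g : ℕ)
    (hRiem : ∀ D : Divisor K F, (g : ℤ) ≤ Divisor.degree D →
      ∃ E : Divisor K F, (∀ P, 0 ≤ E P) ∧ D - E ∈ Divisor.principal (K := K) (F := F)) :
    BoundedClasses K F := by
  classical
  rcases isEmpty_or_nonempty (Place K F) with hP | ⟨⟨P₀⟩⟩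
  · exact ⟨0, fun D _ => ⟨0, by
      rw [Subsingleton.elim D 0, sub_zero]; exact zero_mem _, by simp [absSum]⟩⟩
  refine ⟨g + g, fun D hD => ?_⟩
  rw [Divisor.mem_degZero] at hD
  have hd : Divisor.degree (D + Finsupp.single P₀ (g : ℤ)) = g := by
    rw [map_add, hD, Divisor.degree_single, hdeg]; simp
  obtain ⟨E, hE0, hE⟩ := hRiem _ (le_of_eq hd.symm)
  refine ⟨E - Finsupp.single P₀ (g : ℤ), ?_, ?_⟩
  · convert hE using 1; abel
  have hdegE : Divisor.degree E = g := by
    have h := hprin _ hE
    rw [map_sub, hd, sub_eq_zero] at h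
    exact h.symm
  have hEsum : absSum E = g := by
    have h := degree_eq_absSum hdeg hE0
    rw [hdegE] at h
    exact_mod_cast h.symm
  exact (absSum_sub_le _ _).trans_eq (by rw [hEsum, absSum_single, Int.natAbs_natCast])

/-- Rigidity: a map bounded on places which kills principal divisors kills degree zero. -/
theorem eq_zero_on_degZero (hB : BoundedClasses K F) {κ : Type*}
    (ψ : Divisor K F →+ (κ →₀ ℤ)) (c : ℕ)
    (hψ : ∀ P i, (ψ (Finsupp.single P 1) i).natAbs ≤ c)
    (hprin : ∀ D ∈ Divisor.principal (K := K) (F := F), ψ D = 0)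
    {D : Divisor K F} (hD : D ∈ Divisor.degZero (K := K) (F := F)) : ψ D = 0 := by
  obtain ⟨B, hB⟩ := hB
  have h := eq_zero_of_bounded (ψ.comp (Divisor.degZero (K := K) (F := F)).subtype) (c * B)
    (fun E i => by
      obtain ⟨E', hp, hE'⟩ := hB E E.2
      have heq : ψ E = ψ E' := by rw [← sub_eq_zero, ← map_sub]; exact hprin _ hp
      show (ψ E i).natAbs ≤ c * B
      rw [heq]
      exact le_trans (natAbs_apply_le_of_bound ψ c hψ E' i) (Nat.mul_le_mul_left c hE'))
  exact DFunLike.congr_fun h ⟨D, hD⟩

/-- The same, for a map killing a generating set of the principal divisors. -/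
theorem eq_zero_on_degZero_of_closure (hB : BoundedClasses K F) {κ : Type*}
    (ψ : Divisor K F →+ (κ →₀ ℤ)) (c : ℕ)
    (hψ : ∀ P i, (ψ (Finsupp.single P 1) i).natAbs ≤ c) (S : Set (Divisor K F))
    (hgen : Divisor.principal (K := K) (F := F) ≤ AddSubgroup.closure S)
    (hS : ∀ D ∈ S, ψ D = 0)
    {D : Divisor K F} (hD : D ∈ Divisor.degZero (K := K) (F := F)) : ψ D = 0 :=
  eq_zero_on_degZero hB ψ c hψ
    (fun E hE => by
      have : AddSubgroup.closure S ≤ ψ.ker := (AddSubgroup.closure_le _).mpr hS
      exact this (hgen hE)) hD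

end Fermat.Agent.EichlerShimura
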