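import Fermat.Prelude.Def_AlgebraicCurve_BaseChangeGalois
import Fermat.Prelude.Def_ModularCurve_X0ModL

/-!
# Coefficientwise automorphisms of the function field

An automorphism of the constants `k` acts on the coefficients of expansions in
`modularFunctionFieldFullC k N`. For the Frobenius of a residue field this is the operator `F` of
the congruence relation.
-/

noncomputable section

namespace Fermat.Agent.EichlerShimura

open AlgebraicCurve ModularCurve IntermediateField

variable {k : Type*} [Field k] {N : ℕ}

theorem coeffMap_mem_fullC (φ : k →+* k) {x : LaurentSeries k}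
    (hx : x ∈ modularFunctionFieldFullC k N) : coeffMap φ x ∈ modularFunctionFieldFullC k N := by
  have hx' : x ∈ Subfield.closure
      (Set.range (algebraMap k (LaurentSeries k)) ∪ divisorExpansionsC k N) := hx
  clear hx
  induction hx' using Subfield.closure_induction with
  | mem y hy =>
    rcases hy with ⟨a, rfl⟩ | ⟨d, hne, hd, rfl⟩
    · rw [coeffMap_algebraMap]
      exact (modularFunctionFieldFullC k N).algebraMap_mem _
    · have := hne
      rw [coeffMap_qExpand, coeffMap_jqModC]
      exact jqModCd_mem_full k N hd
  | one => simp
  | add x y _ _ hx hy => simpa using add_mem hx hy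
  | neg x _ hx => simpa using neg_mem hx
  | inv x _ hx => simpa using inv_mem hx
  | mul x y _ _ hx hy => simpa using mul_mem hx hy

variable (N) in
/-- The automorphism of the function field induced by an automorphism of the constants. -/
def coeffRingAut (φ : k ≃+* k) :
    modularFunctionFieldFullC k N ≃+* modularFunctionFieldFullC k N where
  toFun x := ⟨coeffMap (φ : k →+* k) (x : LaurentSeries k), coeffMap_mem_fullC _ x.2⟩
  invFun x := ⟨coeffMap (φ.symm : k →+* k) (x : LaurentSeries k), coeffMap_mem_fullC _ x.2⟩
  left_inv x := Subtype.ext (by ext n; simp)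
  right_inv x := Subtype.ext (by ext n; simp)
  map_mul' x y := Subtype.ext (map_mul (coeffMap (φ : k →+* k)) _ _)
  map_add' x y := Subtype.ext (map_add (coeffMap (φ : k →+* k)) _ _)

variable (N) in
/-- The semilinear automorphism given by acting on the coefficients of expansions. -/
def coeffSemilinear (φ : k ≃+* k) : SemilinearAut k (modularFunctionFieldFullC k N) :=
  ⟨(coeffRingAut N φ, φ), fun a => Subtype.ext (coeffMap_algebraMap (φ : k →+* k) a)⟩

theorem coe_coeffSemilinear_smul (φ : k ≃+* k) (x : modularFunctionFieldFullC k N) :
    ((coeffSemilinear N φ • x : modularFunctionFieldFullC k N) : LaurentSeries k) =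
      coeffMap (φ : k →+* k) (x : LaurentSeries k) :=
  rfl

theorem coeffSemilinear_refl : coeffSemilinear N (RingEquiv.refl k) = 1 := by
  refine Subtype.ext (Prod.ext (RingEquiv.ext fun x => Subtype.ext ?_) rfl)
  show coeffMap ((RingEquiv.refl k : k ≃+* k) : k →+* k) (x : LaurentSeries k) = x
  ext n; simp

theorem coeffSemilinear_inv (φ : k ≃+* k) :
    (coeffSemilinear N φ)⁻¹ = coeffSemilinear N φ.symm :=
  rfl

theorem coe_coeffSemilinear_inv_smul (φ : k ≃+* k) (x : modularFunctionFieldFullC k N) :
    (((coeffSemilinear N φ)⁻¹ • x : modularFunctionFieldFullC k N) : LaurentSeries k) =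
      coeffMap (φ.symm : k →+* k) (x : LaurentSeries k) :=
  rfl

end Fermat.Agent.EichlerShimura
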