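import Mathlib.Algebra.CharP.Frobenius
import Mathlib.Algebra.CharP.Reduced
import Mathlib.RingTheory.PowerSeries.Expand
import Fermat.Prelude.Def_ModularCurve_LaurentCoeff
import Fermat.Prelude.Def_ModularCurve_X0
import Fermat.Prelude.Thm_ModularCurve_coeffMap_qExpand

/-!
# Operations on Laurent series

Twists `q ↦ c q` of Laurent series, descent along `qExpand`, and `p`th powers in characteristic `p`,
used to compute the norm of `β f` and its reduction.
-/

noncomputable section

namespace Fermat.Agent.EichlerShimura

open ModularCurve HahnSeries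

variable {R S : Type*} [CommRing R] [CommRing S]

/-- The substitution `t ↦ c t` in a Laurent series. -/
def twistFun (c : Rˣ) (x : LaurentSeries R) : LaurentSeries R where
  coeff n := ((c ^ n : Rˣ) : R) * x.coeff n
  isPWO_support' := x.isPWO_support.mono fun n hn => by
    simp only [Function.mem_support, ne_eq] at hn
    exact fun h => hn (by simp [h])

@[simp]
theorem twistFun_coeff (c : Rˣ) (x : LaurentSeries R) (n : ℤ) :
    (twistFun c x).coeff n = ((c ^ n : Rˣ) : R) * x.coeff n := rfl

theorem twistFun_support (c : Rˣ) (x : LaurentSeries R) :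
    (twistFun c x).support = x.support := by
  ext n
  simp [HahnSeries.support, Units.mul_right_eq_zero]

theorem twistFun_mul (c : Rˣ) (x y : LaurentSeries R) :
    twistFun c (x * y) = twistFun c x * twistFun c y := by
  ext n
  rw [twistFun_coeff, coeff_mul_left' (x := twistFun c x) x.isPWO_support
      (twistFun_support c x).subset,
    coeff_mul, Finset.mul_sum]
  refine Finset.sum_congr ?_ fun ij hij => ?_
  · ext ij; simp [twistFun_support]
  · simp only [Finset.mem_antidiagonal] at hij
    rw [← hij.2.2, zpow_add, Units.val_mul, twistFun_coeff, twistFun_coeff]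
    ring

/-- The substitution `t ↦ c t` as a ring homomorphism. -/
def twist (c : Rˣ) : LaurentSeries R →+* LaurentSeries R where
  toFun := twistFun c
  map_one' := by
    ext n; rw [twistFun_coeff, coeff_one]; split <;> simp_all
  map_mul' := twistFun_mul c
  map_zero' := by ext n; simp
  map_add' x y := by ext n; simp [mul_add]

@[simp]
theorem twist_coeff (c : Rˣ) (x : LaurentSeries R) (n : ℤ) :
    (twist c x).coeff n = ((c ^ n : Rˣ) : R) * x.coeff n := rfl

theorem coeffMap_twist (f : R →+* S) (c : Rˣ) (x : LaurentSeries R) :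
    coeffMap f (twist c x) = twist (Units.map f.toMonoidHom c) (coeffMap f x) := by
  ext n; simp [← map_zpow]

theorem twist_one (x : LaurentSeries R) : twist 1 x = x := by
  ext n; simp

theorem twist_qExpand_of_pow_eq_one (c : Rˣ) (m : ℕ) [NeZero m] (hc : c ^ m = 1)
    (x : LaurentSeries R) : twist c (qExpand R m x) = qExpand R m x := by
  ext n
  by_cases h : (m : ℤ) ∣ n
  · obtain ⟨d, rfl⟩ := h
    rw [twist_coeff, qExpand_coeff_mul, zpow_mul, zpow_natCast, hc, one_zpow, Units.val_one,
      one_mul]
  · rw [twist_coeff, qExpand_coeff_of_not_dvd m _ h, mul_zero]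

theorem coeffMap_injective {f : R →+* S} (hf : Function.Injective f) :
    Function.Injective (coeffMap f) := fun x y h => by
  ext n; exact hf (by simpa using congrArg (fun z => HahnSeries.coeff z n) h)

/-- A series whose image descends along `qExpand` descends. -/
theorem exists_qExpand_eq {f : R →+* S} (hf : Function.Injective f) (m : ℕ) [NeZero m]
    (Y : LaurentSeries R) (z : LaurentSeries S) (h : coeffMap f Y = qExpand S m z) :
    ∃ w : LaurentSeries R, coeffMap f w = z ∧ qExpand R m w = Y := by
  have hz : ∀ n : ℤ, f (Y.coeff ((m : ℤ) * n)) = z.coeff n := fun n => by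
    rw [← coeffMap_coeff, h, qExpand_coeff_mul]
  let w : LaurentSeries R :=
    { coeff := fun n => Y.coeff ((m : ℤ) * n)
      isPWO_support' := z.isPWO_support.mono fun n hn => by
        simp only [Function.mem_support, ne_eq] at hn
        intro h0
        exact hn (hf (by rw [map_zero, hz n]; exact h0)) }
  have hw : coeffMap f w = z := by ext n; exact hz n
  exact ⟨w, hw, coeffMap_injective hf (by rw [coeffMap_qExpand, hw, h])⟩

theorem ofPowerSeries_expand (p : ℕ) [hp : NeZero p] (u : PowerSeries R) :
    ofPowerSeries ℤ R (PowerSeries.expand p hp.out u) = qExpand R p (ofPowerSeries ℤ R u) := by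
  ext n
  by_cases hn : (p : ℤ) ∣ n
  · obtain ⟨d, rfl⟩ := hn
    rw [qExpand_coeff_mul]
    rcases le_or_gt 0 d with hd | hd
    · lift d to ℕ using hd
      rw [← Nat.cast_mul, ofPowerSeries_apply_coeff, ofPowerSeries_apply_coeff,
        PowerSeries.coeff_expand_mul]
    · rw [ofPowerSeries_coeff_of_neg _ hd, ofPowerSeries_coeff_of_neg]
      exact mul_neg_of_pos_of_neg (by exact_mod_cast Nat.pos_of_ne_zero hp.out) hd
  · rw [qExpand_coeff_of_not_dvd p _ hn]
    rcases le_or_gt 0 n with hd | hd
    · lift n to ℕ using hd
      rw [ofPowerSeries_apply_coeff, PowerSeries.coeff_expand_of_not_dvd]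
      exact_mod_cast hn
    · exact ofPowerSeries_coeff_of_neg _ hd

/-- In characteristic `p`: `x(t)^p = x^{(p)}(t^p)`. -/
theorem pow_char_eq_qExpand (p : ℕ) [hp : Fact p.Prime] [NeZero p] [CharP R p]
    (x : LaurentSeries R) : x ^ p = qExpand R p (coeffMap (frobenius R p) x) := by
  conv_lhs => rw [← x.single_order_mul_powerSeriesPart]
  conv_rhs => rw [← x.single_order_mul_powerSeriesPart]
  rw [mul_pow, map_mul, map_mul, coeffMap_single, map_one (frobenius R p), qExpand_single,
    single_pow, one_pow, nsmul_eq_mul, ← map_pow]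
  congr 1
  have hmap : coeffMap (frobenius R p) (ofPowerSeries ℤ R x.powerSeriesPart) =
      ofPowerSeries ℤ R (x.powerSeriesPart.map (frobenius R p)) := by
    ext k
    rw [coeffMap_coeff]
    rcases le_or_gt 0 k with hk | hk
    · lift k to ℕ using hk
      rw [ofPowerSeries_apply_coeff, ofPowerSeries_apply_coeff, PowerSeries.coeff_map]
    · rw [ofPowerSeries_coeff_of_neg _ hk, ofPowerSeries_coeff_of_neg _ hk, map_zero]
  rw [hmap, ← ofPowerSeries_expand, ← PowerSeries.map_expand]
  exact congrArg _ (MvPowerSeries.map_frobenius_expand p (NeZero.ne p)).symm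

end Fermat.Agent.EichlerShimura
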