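import Mathlib.RingTheory.Norm.Transitivity
import Fermat.Prelude.Def_ModularCurve_HeckeOperatorTotal
import Fermat.Prelude.Def_ModularCurve_ReductionModL
import Fermat.Agent.EichlerShimura.FrobFull
import Fermat.Agent.EichlerShimura.Series

/-!
# The Eichler–Shimura congruence on divisor classes

The congruence relation is deduced from the congruence of the norm
`N_α(β f) = f(q^ℓ) ∏_b f(ζ^b q^{1/ℓ}) ≡ f^{(φ⁻¹)}(q)^ℓ f^{(φ)}(q)` and rigidity. This file computes
the norm and its reduction, given the conjugates `HeckeEmbeddings`.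
-/

noncomputable section

namespace Fermat.Agent.EichlerShimura

open AlgebraicCurve ModularCurve

/-- The norm of a finite separable extension as a product over a full set of embeddings. -/
theorem norm_eq_prod_of_injective {F F' E : Type*} [Field F] [Field F'] [Field E] [Algebra F F']
    [FiniteDimensional F F'] [Algebra.IsSeparable F F'] (ι : F →+* E) {I : Type*} [Fintype I]
    (φ : I → F' →+* E) (hφ : ∀ i x, φ i (algebraMap F F' x) = ι x) (hinj : Function.Injective φ)
    (hcard : Module.finrank F F' ≤ Fintype.card I) (z : F') :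
    ι (Algebra.norm F z) = ∏ i, φ i z := by
  let : Algebra F (AlgebraicClosure E) := ((algebraMap E (AlgebraicClosure E)).comp ι).toAlgebra
  let Φ : I → (F' →ₐ[F] AlgebraicClosure E) := fun i =>
    { (algebraMap E (AlgebraicClosure E)).comp (φ i) with
      commutes' := fun x => congrArg (algebraMap E (AlgebraicClosure E)) (hφ i x) }
  have hΦ : Function.Injective Φ := fun i j h => hinj <| RingHom.ext fun x =>
    (algebraMap E (AlgebraicClosure E)).injective (DFunLike.congr_fun h x)
  have hbij : Function.Bijective Φ := (Fintype.bijective_iff_injective_and_card Φ).mpr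
    ⟨hΦ, le_antisymm (Fintype.card_le_of_injective Φ hΦ) (by rw [AlgHom.card]; exact hcard)⟩
  apply (algebraMap E (AlgebraicClosure E)).injective
  rw [map_prod]
  exact (Algebra.norm_eq_prod_embeddings (K := F) (E := AlgebraicClosure E) z).trans
    (Fintype.prod_bijective Φ hbij _ _ fun i => rfl).symm

variable (L : Type*) [Field L] [Algebra ℚ L] (N ℓ : ℕ) [NeZero N] [NeZero ℓ]

/-- The conjugates of the field of level `N * ℓ` over `α`, in `L((t))` with `q = t ^ ℓ`. -/
def HeckeEmbeddings (ζ : Lˣ) : Prop :=
  finrankAlong L (heckeAlphaBar L N ℓ) ≤ ℓ + 1 ∧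
  ∃ φ : Option (Fin ℓ) →
      (laurentBaseChange L (modularFunctionFieldFull (N * ℓ)) →+* LaurentSeries L),
    Function.Injective φ ∧
    (∀ i x, φ i (heckeAlphaBar L N ℓ x) = qExpand L ℓ (x : LaurentSeries L)) ∧
    (∀ x, φ none (heckeBetaBar L N ℓ x) = qExpand L ℓ (qExpand L ℓ (x : LaurentSeries L))) ∧
    ∀ (b : Fin ℓ) x, φ (some b) (heckeBetaBar L N ℓ x) = twist (ζ ^ (b : ℕ)) (x : LaurentSeries L)

variable {L N ℓ}

omit [NeZero N] [NeZero ℓ] in
/-- In characteristic zero a finite map of function fields is separable. -/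
theorem separableAlong_of_finiteAlong (φ : laurentBaseChange L (modularFunctionFieldFull N) →ₐ[L]
    laurentBaseChange L (modularFunctionFieldFull (N * ℓ))) (h : FiniteAlong L φ) :
    SeparableAlong L φ := by
  have : CharZero L := charZero_of_injective_algebraMap (algebraMap ℚ L).injective
  have : CharZero (laurentBaseChange L (modularFunctionFieldFull N)) :=
    charZero_of_injective_algebraMap (algebraMap L _).injective
  let := algebraAlong φ
  have : FiniteDimensional (laurentBaseChange L (modularFunctionFieldFull N))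
      (laurentBaseChange L (modularFunctionFieldFull (N * ℓ))) := h
  unfold SeparableAlong
  infer_instance

/-- `N_α(β f)` in the variable `t`. -/
theorem qExpand_normAlong_beta {ζ : Lˣ} (hemb : HeckeEmbeddings L N ℓ ζ)
    (hfin : FiniteAlong L (heckeAlphaBar L N ℓ))
    (f : laurentBaseChange L (modularFunctionFieldFull N)) :
    letI := algebraAlong (heckeAlphaBar L N ℓ)
    qExpand L ℓ ((Algebra.norm (laurentBaseChange L (modularFunctionFieldFull N))
        (heckeBetaBar L N ℓ f) : laurentBaseChange L (modularFunctionFieldFull N)) :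
          LaurentSeries L) =
      qExpand L ℓ (qExpand L ℓ (f : LaurentSeries L)) *
        ∏ b : Fin ℓ, twist (ζ ^ (b : ℕ)) (f : LaurentSeries L) := by
  obtain ⟨hdeg, φ, hinj, hα, hβ, hβb⟩ := hemb
  let := algebraAlong (heckeAlphaBar L N ℓ)
  have : FiniteDimensional (laurentBaseChange L (modularFunctionFieldFull N))
      (laurentBaseChange L (modularFunctionFieldFull (N * ℓ))) := hfin
  have : Algebra.IsSeparable (laurentBaseChange L (modularFunctionFieldFull N))
      (laurentBaseChange L (modularFunctionFieldFull (N * ℓ))) :=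
    separableAlong_of_finiteAlong _ hfin
  have h := norm_eq_prod_of_injective
    ((qExpand L ℓ).comp (algebraMap (laurentBaseChange L (modularFunctionFieldFull N))
      (LaurentSeries L))) φ hα hinj
    (by rw [Fintype.card_option, Fintype.card_fin]; exact hdeg) (heckeBetaBar L N ℓ f)
  rw [Fintype.prod_option, hβ] at h
  refine h.trans (congrArg _ (Finset.prod_congr rfl fun b _ => hβb b f))

/-- The Hecke correspondence sends `div f` to `div N_α(β f)`. -/
theorem heckeDivBar_div
    [HasPrincipalDivisors L (laurentBaseChange L (modularFunctionFieldFull (N * ℓ)))]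
    (hα : HeckeAlphaBarIntegral L N ℓ) (hβ : HeckeBetaBarIntegral L N ℓ)
    (hfin : FiniteAlong L (heckeAlphaBar L N ℓ))
    (hN : NormFormulaAlong L (heckeAlphaBar L N ℓ) hfin)
    {f : laurentBaseChange L (modularFunctionFieldFull N)} (hf : f ≠ 0)
    {D : Divisor L (laurentBaseChange L (modularFunctionFieldFull N))} (hD : ∀ P, D P = P.ord f)
    (P : Place L (laurentBaseChange L (modularFunctionFieldFull N))) :
    letI := algebraAlong (heckeAlphaBar L N ℓ)
    heckeDivBar hα hβ D P =
      P.ord (Algebra.norm (laurentBaseChange L (modularFunctionFieldFull N))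
        (heckeBetaBar L N ℓ f)) := by
  let := algebraAlong (heckeAlphaBar L N ℓ)
  have : Module.Finite (laurentBaseChange L (modularFunctionFieldFull N))
      (laurentBaseChange L (modularFunctionFieldFull (N * ℓ))) := hfin
  rw [heckeDivBar, Divisor.correspondence_apply]
  refine hN (heckeBetaBar L N ℓ f)
    (fun h => hf ((heckeBetaBar L N ℓ).toRingHom.injective (h.trans (map_zero _).symm))) _
    (fun w => ?_) P
  rw [Divisor.pullbackAlong_apply, hD, ← Place.ord_restrictAlong]

variable {A : ValuationSubring L} {k : Type*} [Field k] {π : A →+* k}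

/-- The congruence for an integral function. -/
theorem reduction_normAlong [Fact ℓ.Prime] [CharP k ℓ] {φ : k ≃+* k} (hφ : ∀ x, φ x = x ^ ℓ)
    {ζ : Aˣ} (hζ : ζ ^ ℓ = 1)
    (hemb : HeckeEmbeddings L N ℓ (Units.map A.subtype.toMonoidHom ζ))
    (hfin : FiniteAlong L (heckeAlphaBar L N ℓ))
    (y : LaurentSeries A)
    (hy : coeffMap A.subtype y ∈ laurentBaseChange L (modularFunctionFieldFull N))
    (hyk : coeffMap π y ∈ modularFunctionFieldFullC k N) :
    letI := algebraAlong (heckeAlphaBar L N ℓ)
    ∃ w : LaurentSeries A,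
      coeffMap A.subtype w = (Algebra.norm (laurentBaseChange L (modularFunctionFieldFull N))
        (heckeBetaBar L N ℓ ⟨coeffMap A.subtype y, hy⟩) :
          laurentBaseChange L (modularFunctionFieldFull N)) ∧
      coeffMap π w = (((coeffSemilinear N φ)⁻¹ • (⟨coeffMap π y, hyk⟩ :
        modularFunctionFieldFullC k N)) ^ ℓ * coeffSemilinear N φ • (⟨coeffMap π y, hyk⟩ :
        modularFunctionFieldFullC k N) : modularFunctionFieldFullC k N) := by
  set Y : LaurentSeries A := qExpand A ℓ (qExpand A ℓ y) * ∏ b : Fin ℓ, twist (ζ ^ (b : ℕ)) y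
    with hY
  have hY' := qExpand_normAlong_beta hemb hfin ⟨coeffMap A.subtype y, hy⟩
  obtain ⟨w, hw, hwY⟩ := exists_qExpand_eq (f := A.subtype) A.subtype_injective ℓ Y
    (h := by
      rw [hY']
      simp only [hY, map_mul, map_prod, coeffMap_qExpand, coeffMap_twist, map_pow])
  refine ⟨w, hw, qExpand_injective ℓ ?_⟩
  rw [← coeffMap_qExpand, hwY, hY]
  have hπζ : Units.map (π : A →* k) ζ = 1 := Units.ext <| by
    refine frobenius_inj k ℓ ?_
    rw [Units.val_one, frobenius_def, frobenius_def, one_pow, Units.coe_map, ← map_pow,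
      ← Units.val_pow_eq_pow_val, hζ, Units.val_one, map_one]
  have hfr : frobenius k ℓ = (φ : k →+* k) := RingHom.ext fun x => (hφ x).symm
  have hcancel : coeffMap (φ : k →+* k) (coeffMap (φ.symm : k →+* k)
      (coeffMap π y)) = coeffMap π y := by
    ext n; simp
  simp only [map_mul, map_prod, coeffMap_qExpand, coeffMap_twist, map_pow,
    RingHom.toMonoidHom_eq_coe, hπζ, one_pow, twist_one, Finset.prod_const, Finset.card_univ,
        Fintype.card_fin,
    MulMemClass.coe_mul, SubmonoidClass.coe_pow, coe_coeffSemilinear_smul,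
    coe_coeffSemilinear_inv_smul]
  rw [pow_char_eq_qExpand ℓ (coeffMap π y), hfr, ← map_pow (qExpand k ℓ),
    pow_char_eq_qExpand ℓ (coeffMap (φ.symm : k →+* k) (coeffMap π y)), hfr, hcancel]

end Fermat.Agent.EichlerShimura
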