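import Fermat.Prelude.Def_ModularCurve_ReductionModL
import Fermat.Agent.EichlerShimura.Bounded
import Fermat.Agent.EichlerShimura.FrobFull

/-!
# Reduction of divisor classes is equivariant

Reduction commutes with the decomposition group, deduced from the defining property of a place
reduction and rigidity. So inertia acts trivially on the specialisation and a Frobenius element acts
as Frobenius.
-/

noncomputable section

namespace Fermat.Agent.EichlerShimura

open AlgebraicCurve ModularCurve

/-- An automorphism `σ` of `L` preserves `A` and induces `φ` on `k` through `π`. -/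
def InducesOn {L : Type*} [Field L] [Algebra ℚ L] (A : ValuationSubring L)
    {k : Type*} [Field k] (π : A →+* k) (σ : L ≃ₐ[ℚ] L) (φ : k ≃+* k) : Prop :=
  ∀ a : A, ∃ h : σ (a : L) ∈ A, π ⟨σ (a : L), h⟩ = φ (π a)

variable {L : Type*} [Field L] [Algebra ℚ L] {A : ValuationSubring L}
variable {k : Type*} [Field k] {π : A →+* k} {N : ℕ}
variable {r : Place L (laurentBaseChange L (modularFunctionFieldFull N)) →
  Place k (modularFunctionFieldFullC k N)}
variable {σ : L ≃ₐ[ℚ] L} {φ : k ≃+* k}

/-- The restriction of `σ` to `A`. -/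
def InducesOn.restr (h : InducesOn A π σ φ) : A →+* A where
  toFun a := ⟨σ (a : L), (h a).fst⟩
  map_one' := Subtype.ext (map_one σ)
  map_mul' _ _ := Subtype.ext (map_mul σ _ _)
  map_zero' := Subtype.ext (map_zero σ)
  map_add' _ _ := Subtype.ext (map_add σ _ _)

theorem InducesOn.subtype_comp (h : InducesOn A π σ φ) :
    A.subtype.comp h.restr = (σ : L →+* L).comp A.subtype :=
  rfl

theorem InducesOn.comp_restr (h : InducesOn A π σ φ) :
    π.comp h.restr = (φ : k →+* k).comp π :=
  RingHom.ext fun a => (h a).snd

theorem natAbs_single_le {ι : Type*} (a b : ι) : (Finsupp.single a (1 : ℤ) b).natAbs ≤ 1 := by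
  classical
  rw [Finsupp.single_apply]; split <;> simp

/-- The place reduction intertwines `σ` and `φ` on divisors of degree zero. -/
theorem mapDomain_smul_eq (hr : IsPlaceReductionAlong A π N r)
    (hgen : PrincipalGeneratedByIntegral A π N)
    (hB : BoundedClasses L (laurentBaseChange L (modularFunctionFieldFull N)))
    (hσ : InducesOn A π σ φ) {D : Divisor L (laurentBaseChange L (modularFunctionFieldFull N))}
    (hD : D ∈ Divisor.degZero (K := L) (F := laurentBaseChange L (modularFunctionFieldFull N))) :
    Finsupp.mapDomain r (arithmeticGalois (modularFunctionFieldFull N) σ • D) =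
      coeffSemilinear N φ • Finsupp.mapDomain r D := by
  set g := arithmeticGalois (modularFunctionFieldFull N) σ with hg
  set g' := coeffSemilinear N φ with hg'
  set ψ : Divisor L (laurentBaseChange L (modularFunctionFieldFull N)) →+
      Divisor k (modularFunctionFieldFullC k N) :=
    (Finsupp.mapDomain.addMonoidHom r).comp (DistribSMul.toAddMonoidHom _ g) -
      (DistribSMul.toAddMonoidHom _ g').comp (Finsupp.mapDomain.addMonoidHom r) with hψ
  have happ : ∀ E, ψ E = Finsupp.mapDomain r (g • E) - g' • Finsupp.mapDomain r E := fun E => rfl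
  rw [← sub_eq_zero, ← happ]
  refine eq_zero_on_degZero_of_closure hB ψ 2 (fun P i => ?_) _ hgen ?_ hD
  · rw [happ, SemilinearAut.smul_single, Finsupp.mapDomain_single, Finsupp.mapDomain_single,
      SemilinearAut.smul_single, Finsupp.sub_apply]
    exact le_trans (Int.natAbs_sub_le _ _) (add_le_add (natAbs_single_le _ _)
        (natAbs_single_le _ _))
  rintro E ⟨y, hy, hyk, hne, hE⟩
  rw [happ, sub_eq_zero]
  have e1 : coeffMap A.subtype (coeffMap hσ.restr y) = coeffMap (σ : L →+* L)
      (coeffMap A.subtype y) := by
    rw [coeffMap_coeffMap, coeffMap_coeffMap, hσ.subtype_comp]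
  have e2 : coeffMap π (coeffMap hσ.restr y) = coeffMap (φ : k →+* k) (coeffMap π y) := by
    rw [coeffMap_coeffMap, coeffMap_coeffMap, hσ.comp_restr]
  have hy' : coeffMap A.subtype (coeffMap hσ.restr y) ∈
      laurentBaseChange L (modularFunctionFieldFull N) := by
    rw [e1]; exact coeffMap_mem_laurentBaseChange σ hy
  have hyk' : coeffMap π (coeffMap hσ.restr y) ∈ modularFunctionFieldFullC k N := by
    rw [e2]; exact coeffMap_mem_fullC _ hyk
  have hne' : coeffMap π (coeffMap hσ.restr y) ≠ 0 := by
    rw [e2]
    intro h0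
    refine hne ?_
    have := congrArg (coeffMap (φ.symm : k →+* k)) h0
    rw [map_zero] at this
    rw [← this]
    ext n; simp
  have helt : (⟨coeffMap A.subtype (coeffMap hσ.restr y), hy'⟩ :
      laurentBaseChange L (modularFunctionFieldFull N)) = g • ⟨coeffMap A.subtype y, hy⟩ :=
    Subtype.ext e1
  have heltk : (⟨coeffMap π (coeffMap hσ.restr y), hyk'⟩ : modularFunctionFieldFullC k N) =
      g' • ⟨coeffMap π y, hyk⟩ :=
    Subtype.ext e2
  refine Finsupp.ext fun Q => ?_
  rw [hr.2 _ hy' hyk' hne' (g • E) (fun P => ?_) Q, heltk, SemilinearAut.divisor_smul_apply,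
    hr.2 y hy hyk hne E hE]
  · have h := SemilinearAut.ord_smul g' (g'⁻¹ • Q) (⟨coeffMap π y,
        hyk⟩ : modularFunctionFieldFullC k N)
    rw [smul_inv_smul] at h
    exact h
  · rw [helt, SemilinearAut.divisor_smul_apply, hE]
    have h := SemilinearAut.ord_smul g (g⁻¹ • P)
      (⟨coeffMap A.subtype y, hy⟩ : laurentBaseChange L (modularFunctionFieldFull N))
    rw [smul_inv_smul] at h
    exact h.symm

/-- Equivariance of reduction on divisor classes. -/
theorem reductionAlong_smul (h : ReductionInputsAlong A π N)
    (hB : BoundedClasses L (laurentBaseChange L (modularFunctionFieldFull N)))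
    (hσ : InducesOn A π σ φ) (x : Pic0 L (laurentBaseChange L (modularFunctionFieldFull N))) :
    reductionAlong A π N (σ • x) = coeffSemilinear N φ • reductionAlong A π N x := by
  obtain ⟨D, rfl⟩ := Pic0.mk_surjective x
  rw [galois_smul_pic0_def, SemilinearAut.pic0_smul_mk, reductionAlong_mk h, reductionAlong_mk h,
    SemilinearAut.pic0_smul_mk]
  refine congrArg Pic0.mk (Subtype.ext ?_)
  simp only [coe_reductionDegZeroAlong, SemilinearAut.coe_degZeroSMulHom]
  exact mapDomain_smul_eq h.choose_spec.1 h.choose_spec.2 hB hσ D.2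

end Fermat.Agent.EichlerShimura
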