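import Fermat.Prelude.Def_EllipticCurve_FrobeniusTrace
import Fermat.Agent.EichlerShimura.Equivariance

/-!
# Decomposition, inertia and Frobenius elements

These elements in the form used for the reduction map: each induces an automorphism of the residue
field, the identity for inertia and the `ℓ`-th power map for a Frobenius element.
-/

noncomputable section

namespace Fermat.Agent.EichlerShimura

open ModularCurve

variable (A : ValuationSubring (AlgebraicClosure ℚ))

/-- The residue field automorphism of an element of the decomposition group. -/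
def residueAut (g : A.decompositionSubgroup ℚ) :
    IsLocalRing.ResidueField A ≃+* IsLocalRing.ResidueField A :=
  MulSemiringAction.toRingEquiv (A.decompositionSubgroup ℚ) (IsLocalRing.ResidueField A) g

variable {A}

/-- An element of the decomposition group induces its residue automorphism. -/
theorem inducesOn_residueAut {σ : AlgebraicClosure ℚ ≃ₐ[ℚ] AlgebraicClosure ℚ}
    (h : σ ∈ A.decompositionSubgroup ℚ) :
    InducesOn A (IsLocalRing.residue A) σ (residueAut A ⟨σ, h⟩) :=
  fun a => ⟨((⟨σ, h⟩ : A.decompositionSubgroup ℚ) • a).2,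
    rfl⟩

/-- A Frobenius element induces `x ↦ x ^ ℓ`. -/
theorem residueAut_frobenius {σ : AlgebraicClosure ℚ ≃ₐ[ℚ] AlgebraicClosure ℚ} {ℓ : ℕ}
    (h : A.IsFrobeniusAt σ ℓ) (x : IsLocalRing.ResidueField A) :
    residueAut A ⟨σ, h.mem_decompositionSubgroup⟩ x = x ^ ℓ :=
  h.smul_residue_eq x

/-- An inertia element induces the identity. -/
theorem inducesOn_refl_of_inertia {σ : AlgebraicClosure ℚ ≃ₐ[ℚ] AlgebraicClosure ℚ}
    (h : σ ∈ A.inertiaSubgroupIn ℚ) :
    InducesOn A (IsLocalRing.residue A) σ (RingEquiv.refl _) := by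
  obtain ⟨g, hg, rfl⟩ := h
  have hg' : residueAut A g = RingEquiv.refl _ :=
    RingEquiv.ext fun x => RingEquiv.congr_fun (MonoidHom.mem_ker.mp hg) x
  have := inducesOn_residueAut (A := A) g.2
  rwa [show residueAut A ⟨g.1, g.2⟩ = RingEquiv.refl _ from hg'] at this

/-- A place contains a primitive `ℓ`-th root of unity as a unit. -/
theorem exists_primitiveRoot_unit {ℓ : ℕ} (hℓ : ℓ.Prime) :
    ∃ ζ : Aˣ, ζ ^ ℓ = 1 ∧
      IsPrimitiveRoot (Units.map A.subtype.toMonoidHom ζ : (AlgebraicClosure ℚ)ˣ) ℓ := by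
  have : NeZero ℓ := ⟨hℓ.ne_zero⟩
  have : NeZero ((ℓ : ℚ)) := ⟨by exact_mod_cast hℓ.ne_zero⟩
  obtain ⟨z, hz⟩ := HasEnoughRootsOfUnity.exists_primitiveRoot (AlgebraicClosure ℚ) ℓ
  obtain ⟨m, hm⟩ := Nat.exists_eq_add_of_le hℓ.one_lt.le
  have h1 : z * z ^ m = 1 := by rw [← pow_succ', add_comm, ← hm, hz.pow_eq_one]
  have hz0 : z ≠ 0 := hz.ne_zero hℓ.ne_zero
  have hmem : z ∈ A := by
    rcases A.mem_or_inv_mem z with h | h
    · exact h
    · have : z = (z⁻¹) ^ m := by
        rw [inv_pow]
        exact eq_inv_of_mul_eq_one_left h1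
      rw [this]
      exact pow_mem h m
  let u : Aˣ := ⟨⟨z, hmem⟩, ⟨z ^ m, pow_mem hmem m⟩, Subtype.ext h1,
    Subtype.ext ((mul_comm _ _).trans h1)⟩
  refine ⟨u, Units.ext (Subtype.ext ?_), ?_⟩
  · simp [u, hz.pow_eq_one]
  · exact IsPrimitiveRoot.coe_units_iff.mp hz

end Fermat.Agent.EichlerShimura
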