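import Fermat.Agent.EichlerShimura.Congruence
import Fermat.Agent.EichlerShimura.Equivariance

/-!
# The Eichler–Shimura relation

The relation `sp ∘ T_ℓ = (F + ℓ F⁻¹) ∘ sp` on divisor classes, extended by rigidity from the
divisors of integral functions to all divisors of degree zero.
-/

noncomputable section

namespace Fermat.Agent.EichlerShimura

open AlgebraicCurve ModularCurve

variable {L : Type*} [Field L] [Algebra ℚ L] {N ℓ : ℕ} [NeZero N] [NeZero ℓ]

section General

variable {K F F' : Type*} [Field K] [Field F] [Field F'] [Algebra K F] [Algebra K F']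
  (φ ψ : F →ₐ[K] F') (hφ : φ.toRingHom.IsIntegral) (hψ : ψ.toRingHom.IsIntegral)

theorem pullbackAlong_nonneg [HasPrincipalDivisors K F'] {D : Divisor K F} (hD : ∀ P, 0 ≤ D P)
    (w : Place K F') : 0 ≤ Divisor.pullbackAlong φ hφ D w := by
  rw [Divisor.pullbackAlong_apply]
  exact mul_nonneg (Int.natCast_nonneg _) (hD _)

theorem pushforwardAlong_nonneg {D : Divisor K F'} (hD : ∀ w, 0 ≤ D w) (P : Place K F) :
    0 ≤ Divisor.pushforwardAlong φ hφ D P := by
  classical
  conv_rhs => rw [← D.sum_single, Finsupp.sum, map_sum, Finsupp.finsetSum_apply]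
  refine Finset.sum_nonneg fun w _ => ?_
  rw [Divisor.pushforwardAlong_single, Finsupp.single_apply]
  split
  · exact mul_nonneg (hD w) (Int.natCast_nonneg _)
  · exact le_rfl

/-- The image of a place under a correspondence has bounded size. -/
theorem absSum_correspondence_single [HasPrincipalDivisors K F']
    (hFI : FundamentalIdentityAlong K φ hφ) (hdeg : ∀ P : Place K F, P.deg = 1) (P : Place K F) :
    absSum (Divisor.correspondence φ ψ hφ hψ (Finsupp.single P 1)) = finrankAlong K φ := by
  have hpos : ∀ Q, 0 ≤ Divisor.correspondence φ ψ hφ hψ (Finsupp.single P 1) Q := fun Q => by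
    rw [Divisor.correspondence_apply]
    refine pushforwardAlong_nonneg _ _ (fun w => pullbackAlong_nonneg _ _ (fun P' => ?_) w) Q
    classical
    rw [Finsupp.single_apply]; split <;> simp
  have hd := Divisor.degree_correspondence φ ψ hφ hψ hFI (Finsupp.single P 1)
  rw [Divisor.degree_single, hdeg] at hd
  generalize Divisor.correspondence φ ψ hφ hψ (Finsupp.single P 1) = E at hpos hd ⊢
  rw [degree_eq_absSum hdeg hpos] at hd
  simpa using hd

end General

theorem natAbs_mapDomain_le {ι κ : Type*} (r : ι → κ) (D : ι →₀ ℤ) (i : κ) :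
    (Finsupp.mapDomain r D i).natAbs ≤ absSum D := by
  have h := natAbs_apply_le_of_bound (Finsupp.mapDomain.addMonoidHom r) 1 (fun P j => by
    rw [Finsupp.mapDomain.addMonoidHom_apply, Finsupp.mapDomain_single]
    exact natAbs_single_le _ _) D i
  simpa using h

/-- Rigidity for a relation between a correspondence and semilinear automorphisms. -/
theorem mapDomain_eq_on_degZero {K F k Fk : Type*} [Field K] [Field F] [Field k] [Field Fk]
    [Algebra K F] [Algebra k Fk] (r : Place K F → Place k Fk)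
    (T : Divisor K F →+ Divisor K F) (g g' : SemilinearAut k Fk) (l n : ℕ)
    (hT : ∀ P, absSum (T (Finsupp.single P 1)) ≤ n) (S : Set (Divisor K F))
    (hgen : Divisor.principal (K := K) (F := F) ≤ AddSubgroup.closure S)
    (hB : BoundedClasses K F)
    (hS : ∀ E ∈ S, Finsupp.mapDomain r (T E) =
      g • Finsupp.mapDomain r E + l • (g' • Finsupp.mapDomain r E))
    {D : Divisor K F} (hD : D ∈ Divisor.degZero (K := K) (F := F)) :
    Finsupp.mapDomain r (T D) = g • Finsupp.mapDomain r D + l • (g' • Finsupp.mapDomain r D) := by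
  set ψ : Divisor K F →+ Divisor k Fk :=
    (Finsupp.mapDomain.addMonoidHom r).comp T -
      ((DistribSMul.toAddMonoidHom _ g).comp (Finsupp.mapDomain.addMonoidHom r) +
        l • (DistribSMul.toAddMonoidHom _ g').comp (Finsupp.mapDomain.addMonoidHom r)) with hψ
  have happ : ∀ E, ψ E = Finsupp.mapDomain r (T E) -
      (g • Finsupp.mapDomain r E + l • (g' • Finsupp.mapDomain r E)) := fun E => rfl
  rw [← sub_eq_zero, ← happ]
  refine eq_zero_on_degZero_of_closure hB ψ (n + (1 + l)) (fun P i => ?_) S hgen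
    (fun E hE => by rw [happ, sub_eq_zero]; exact hS E hE) hD
  rw [happ, Finsupp.mapDomain_single, SemilinearAut.smul_single, SemilinearAut.smul_single,
    Finsupp.sub_apply, Finsupp.add_apply, Finsupp.smul_apply, nsmul_eq_mul]
  refine le_trans (Int.natAbs_sub_le _ _) (add_le_add ?_ (le_trans (Int.natAbs_add_le _ _)
    (add_le_add (natAbs_single_le _ _) ?_)))
  · exact le_trans (natAbs_mapDomain_le r _ i) (hT P)
  · rw [Int.natAbs_mul, Int.natAbs_natCast]
    exact le_trans (Nat.mul_le_mul_left l (natAbs_single_le _ _)) (le_of_eq (mul_one l))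

variable {A : ValuationSubring L} {k : Type*} [Field k] {π : A →+* k}
variable {r : Place L (laurentBaseChange L (modularFunctionFieldFull N)) →
  Place k (modularFunctionFieldFullC k N)}

/-- The congruence relation on the divisor of an integral function. -/
theorem mapDomain_heckeDivBar_integral [Fact ℓ.Prime] [CharP k ℓ] {φ : k ≃+* k}
    (hφ : ∀ x, φ x = x ^ ℓ) {ζ : Aˣ} (hζ : ζ ^ ℓ = 1)
    (hemb : HeckeEmbeddings L N ℓ (Units.map A.subtype.toMonoidHom ζ))
    (hr : IsPlaceReductionAlong A π N r)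
    [HasPrincipalDivisors L (laurentBaseChange L (modularFunctionFieldFull (N * ℓ)))]
    (hα : HeckeAlphaBarIntegral L N ℓ) (hβ : HeckeBetaBarIntegral L N ℓ)
    (hfin : FiniteAlong L (heckeAlphaBar L N ℓ))
    (hN : NormFormulaAlong L (heckeAlphaBar L N ℓ) hfin)
    {E : Divisor L (laurentBaseChange L (modularFunctionFieldFull N))}
    (hE : E ∈ integralPrincipalDivisors A π N) :
    Finsupp.mapDomain r (heckeDivBar hα hβ E) =
      coeffSemilinear N φ • Finsupp.mapDomain r E +
        ℓ • ((coeffSemilinear N φ)⁻¹ • Finsupp.mapDomain r E) := by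
  set g := coeffSemilinear N φ with hg
  obtain ⟨y, hy, hyk, hne, hE⟩ := hE
  obtain ⟨w, hw, hwπ⟩ := reduction_normAlong hφ hζ hemb hfin y hy hyk
  set f : laurentBaseChange L (modularFunctionFieldFull N) := ⟨coeffMap A.subtype y, hy⟩ with hf_def
  set fk : modularFunctionFieldFullC k N := ⟨coeffMap π y, hyk⟩ with hfk_def
  have hf : f ≠ 0 := fun h => hne (by
    have h' : coeffMap A.subtype y = 0 := congrArg Subtype.val h
    rw [show y = 0 from coeffMap_injective (f := A.subtype) A.subtype_injective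
        (by rw [h', map_zero]),
      map_zero])
  have hfk : fk ≠ 0 := fun h => hne (congrArg Subtype.val h)
  have h1 : g • fk ≠ 0 := fun h => hfk (by simpa using congrArg (g⁻¹ • ·) h)
  have h2 : g⁻¹ • fk ≠ 0 := fun h => hfk (by simpa using congrArg (g • ·) h)
  let := algebraAlong (heckeAlphaBar L N ℓ)
  have hwy : coeffMap A.subtype w ∈ laurentBaseChange L (modularFunctionFieldFull N) := by
    rw [hw]; exact SetLike.coe_mem _
  have hwk : coeffMap π w ∈ modularFunctionFieldFullC k N := by
    rw [hwπ]; exact SetLike.coe_mem _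
  have hwne : coeffMap π w ≠ 0 := by
    rw [hwπ]
    intro h
    exact mul_ne_zero (pow_ne_zero ℓ h2) h1 (Subtype.ext h)
  refine Finsupp.ext fun Q => ?_
  rw [hr.2 w hwy hwk hwne (heckeDivBar hα hβ E) (fun P => ?_) Q]
  · rw [show (⟨coeffMap π w, hwk⟩ : modularFunctionFieldFullC k N) = (g⁻¹ • fk) ^ ℓ * g • fk from
      Subtype.ext hwπ, Place.ord_mul _ (pow_ne_zero ℓ h2) h1, ← zpow_natCast (g⁻¹ • fk) ℓ,
      Place.ord_zpow, Finsupp.add_apply, Finsupp.smul_apply, nsmul_eq_mul,
      SemilinearAut.divisor_smul_apply, SemilinearAut.divisor_smul_apply, inv_inv,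
      hr.2 y hy hyk hne E hE, hr.2 y hy hyk hne E hE, add_comm]
    congr 1
    · have h := SemilinearAut.ord_smul g (g⁻¹ • Q) fk
      rwa [smul_inv_smul] at h
    · congr 1
      have h := SemilinearAut.ord_smul g⁻¹ (g • Q) fk
      rwa [inv_smul_smul] at h
  · rw [heckeDivBar_div hα hβ hfin hN hf hE P,
      show (⟨coeffMap A.subtype w, hwy⟩ : laurentBaseChange L (modularFunctionFieldFull N)) =
        Algebra.norm (laurentBaseChange L (modularFunctionFieldFull N)) (heckeBetaBar L N ℓ f) from
      Subtype.ext hw]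

/-- The congruence relation on divisors of degree zero. -/
theorem mapDomain_heckeDivBar_eq [Fact ℓ.Prime] [CharP k ℓ] {φ : k ≃+* k}
    (hφ : ∀ x, φ x = x ^ ℓ) {ζ : Aˣ} (hζ : ζ ^ ℓ = 1)
    (hemb : HeckeEmbeddings L N ℓ (Units.map A.subtype.toMonoidHom ζ))
    (hr : IsPlaceReductionAlong A π N r) (hgen : PrincipalGeneratedByIntegral A π N)
    (hB : BoundedClasses L (laurentBaseChange L (modularFunctionFieldFull N)))
    (hdeg : ∀ P : Place L (laurentBaseChange L (modularFunctionFieldFull N)), P.deg = 1)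
    [HasPrincipalDivisors L (laurentBaseChange L (modularFunctionFieldFull (N * ℓ)))]
    (hα : HeckeAlphaBarIntegral L N ℓ) (hβ : HeckeBetaBarIntegral L N ℓ)
    (hFI : FundamentalIdentityAlong L (heckeBetaBar L N ℓ) hβ)
    (hfin : FiniteAlong L (heckeAlphaBar L N ℓ))
    (hN : NormFormulaAlong L (heckeAlphaBar L N ℓ) hfin)
    {D : Divisor L (laurentBaseChange L (modularFunctionFieldFull N))}
    (hD : D ∈ Divisor.degZero (K := L) (F := laurentBaseChange L (modularFunctionFieldFull N))) :
    Finsupp.mapDomain r (heckeDivBar hα hβ D) =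
      coeffSemilinear N φ • Finsupp.mapDomain r D +
        ℓ • ((coeffSemilinear N φ)⁻¹ • Finsupp.mapDomain r D) :=
  mapDomain_eq_on_degZero r (heckeDivBar hα hβ) _ _ ℓ (finrankAlong L (heckeBetaBar L N ℓ))
    (fun P => (absSum_correspondence_single (heckeBetaBar L N ℓ) (heckeAlphaBar L N ℓ) hβ hα hFI
      hdeg P).le) _ hgen hB
    (fun _ hE => mapDomain_heckeDivBar_integral hφ hζ hemb hr hα hβ hfin hN hE) hD

/-- The congruence relation on divisor classes. -/
theorem reductionAlong_heckeOperatorAlong [Fact ℓ.Prime] [CharP k ℓ] {φ : k ≃+* k}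
    (hφ : ∀ x, φ x = x ^ ℓ) {ζ : Aˣ} (hζ : ζ ^ ℓ = 1)
    (hemb : HeckeEmbeddings L N ℓ (Units.map A.subtype.toMonoidHom ζ))
    (h : ReductionInputsAlong A π N)
    (hB : BoundedClasses L (laurentBaseChange L (modularFunctionFieldFull N)))
    (hdeg : ∀ P : Place L (laurentBaseChange L (modularFunctionFieldFull N)), P.deg = 1)
    (hH : HeckeInputsAlong L N ℓ)
    (x : Pic0 L (laurentBaseChange L (modularFunctionFieldFull N))) :
    reductionAlong A π N (heckeOperatorAlong L N ℓ x) =
      coeffSemilinear N φ • reductionAlong A π N x +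
        ℓ • ((coeffSemilinear N φ)⁻¹ • reductionAlong A π N x) := by
  obtain ⟨hα, hβ, hP, hfin, hFI, hN⟩ := hH
  have := hP
  obtain ⟨D, rfl⟩ := Pic0.mk_surjective x
  rw [heckeOperatorAlong_eq hα hβ hFI hfin hN]
  show reductionAlong A π N (Pic0.mk (Pic0.degZeroCorrespondence (heckeBetaBar L N ℓ)
    (heckeAlphaBar L N ℓ) hβ hα hFI D)) = _
  rw [reductionAlong_mk h, reductionAlong_mk h, SemilinearAut.pic0_smul_mk,
    SemilinearAut.pic0_smul_mk]
  show Pic0.mk _ = Pic0.mk (_ + ℓ • _)
  refine congrArg Pic0.mk (Subtype.ext ?_)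
  exact mapDomain_heckeDivBar_eq hφ hζ hemb h.choose_spec.1 h.choose_spec.2 hB hdeg hα hβ hFI
    hfin hN D.2

end Fermat.Agent.EichlerShimura
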