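import Fermat.Prelude.Def_ModularCurve_HeckeModule
import Fermat.Agent.EichlerShimura.Galois
import Fermat.Agent.EichlerShimura.HeckeRelation

/-!
# The specialisation of `J₀(N)` at a good prime

The quotient of `J₀(N)` by the largest Hecke-stable subgroup killed by reduction, with Frobenius,
satisfies the axioms of a specialisation: inertia acts trivially and `T_ℓ` is Frobenius plus `ℓ`
times its inverse. It gives the Eichler–Shimura relation on torsion.
-/

noncomputable section

namespace Fermat.Agent.EichlerShimura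

open AlgebraicCurve ModularCurve

local notation "Q̄" => AlgebraicClosure ℚ

/-- Everything the congruence relation needs at the prime `ℓ` and the place `A`. -/
structure SpecializationInputs (N ℓ : ℕ) [NeZero N] [NeZero ℓ]
    (A : ValuationSubring Q̄) : Prop where
  red : ReductionInputsModL A N
  bounded : BoundedClasses Q̄ (modularFunctionFieldBar N)
  deg_one : ∀ P : Place Q̄ (modularFunctionFieldBar N), P.deg = 1
  hecke : HeckeInputsAlong Q̄ N ℓ
  embeddings : ∀ ζ : Q̄ˣ, IsPrimitiveRoot ζ ℓ → HeckeEmbeddings Q̄ N ℓ ζ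
  charP : CharP (IsLocalRing.ResidueField A) ℓ
  frobenius : ∃ σ : Q̄ ≃ₐ[ℚ] Q̄, A.IsFrobeniusAt σ ℓ
  injective : ∀ m : ℕ, ¬ ℓ ∣ m → ∀ z : JZero N, m • z = 0 → reductionModL A N z = 0 → z = 0

variable {N ℓ : ℕ} [NeZero N] [NeZero ℓ] {A : ValuationSubring Q̄}

/-- Inertia acts trivially after reduction. -/
theorem SpecializationInputs.reduction_inertia (h : SpecializationInputs N ℓ A) {σ : Q̄ ≃ₐ[ℚ] Q̄}
    (hσ : σ ∈ A.inertiaSubgroupIn ℚ) (x : JZero N) :
    reductionModL A N (σ • x) = reductionModL A N x := by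
  rw [reductionModL, reductionAlong_smul h.red h.bounded (inducesOn_refl_of_inertia hσ),
    coeffSemilinear_refl, one_smul]

theorem SpecializationInputs.reduction_frobenius (h : SpecializationInputs N ℓ A)
    {σ : Q̄ ≃ₐ[ℚ] Q̄} (hσ : A.IsFrobeniusAt σ ℓ) (x : JZero N) :
    reductionModL A N (σ • x) =
      coeffSemilinear N (residueAut A ⟨σ, hσ.mem_decompositionSubgroup⟩) • reductionModL A N x :=
  reductionAlong_smul h.red h.bounded (inducesOn_residueAut _) x

omit [NeZero ℓ] in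
theorem residueAut_frobenius_eq {σ τ : Q̄ ≃ₐ[ℚ] Q̄} (hσ : A.IsFrobeniusAt σ ℓ)
    (hτ : A.IsFrobeniusAt τ ℓ) :
    residueAut A ⟨σ, hσ.mem_decompositionSubgroup⟩ =
      residueAut A ⟨τ, hτ.mem_decompositionSubgroup⟩ :=
  RingEquiv.ext fun x => (residueAut_frobenius hσ x).trans (residueAut_frobenius hτ x).symm

/-- The congruence relation `T_ℓ F = F² + ℓ` after reduction. -/
theorem SpecializationInputs.reduction_hecke (h : SpecializationInputs N ℓ A) (hℓ : ℓ.Prime)
    {σ : Q̄ ≃ₐ[ℚ] Q̄} (hσ : A.IsFrobeniusAt σ ℓ) (x : JZero N) :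
    reductionModL A N (heckeOperatorBar N ⟨ℓ, hℓ⟩ (σ • x)) =
      reductionModL A N (σ • σ • x) + ℓ • reductionModL A N x := by
  have : Fact ℓ.Prime := ⟨hℓ⟩
  have := h.charP
  obtain ⟨ζ, hζ, hprim⟩ := exists_primitiveRoot_unit (A := A) hℓ
  have hrel := reductionAlong_heckeOperatorAlong (π := IsLocalRing.residue A)
    (φ := residueAut A ⟨σ, hσ.mem_decompositionSubgroup⟩) (residueAut_frobenius hσ) hζ
    (h.embeddings _ hprim) h.red h.bounded h.deg_one h.hecke (σ • x)
  refine hrel.trans ?_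
  rw [h.reduction_frobenius hσ (σ • x)]
  congr 1
  rw [show reductionAlong A (IsLocalRing.residue A) N (σ • x) =
    coeffSemilinear N (residueAut A ⟨σ, hσ.mem_decompositionSubgroup⟩) • reductionModL A N x from
      h.reduction_frobenius hσ x, inv_smul_smul]

/-- The congruence relation and good reduction, packaged as in the prelude. -/
theorem specialization_of_inputs (p : ℕ) (hcomm : HeckeOperatorsCommuteBar N) (hℓ : ℓ.Prime)
    (hℓp : ¬ ℓ ∣ N * p) (h : SpecializationInputs N ℓ A) :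
    letI := heckeModuleBar N
    ∀ (_ : SMulCommClass (Q̄ ≃ₐ[ℚ] Q̄) HeckeAlg (JZero N)),
      ∃ (J' : Type) (_ : AddCommGroup J') (_ : Module HeckeAlg J') (sp : JZero N →+ J')
        (F : J' →+ J'),
        IsSpecialization (K := ℚ) p (JZero N) J' A ℓ sp F ∧
          SpecialFibreRelation J' ℓ hℓ F := by
  let := heckeModuleBar N
  intro hsc
  obtain ⟨σ₀, hσ₀⟩ := h.frobenius
  let Kℓ : Submodule HeckeAlg (JZero N) :=
    { carrier := {x | ∀ T : HeckeAlg, reductionModL A N (T • x) = 0}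
      add_mem' := fun {x y} hx hy T => by rw [smul_add, map_add, hx, hy, add_zero]
      zero_mem' := fun T => by rw [smul_zero, map_zero]
      smul_mem' := fun S x hx T => by rw [← mul_smul]; exact hx _ }
  have hfrobK : ∀ x ∈ Kℓ, σ₀ • x ∈ Kℓ := fun x hx T => by
    rw [← smul_comm σ₀ T x, h.reduction_frobenius hσ₀, hx T]
    exact smul_zero (M := SemilinearAut (IsLocalRing.ResidueField A)
      (modularFunctionFieldFullC (IsLocalRing.ResidueField A) N))
      (A := JZeroC (IsLocalRing.ResidueField A) N) _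
  let F : (JZero N ⧸ Kℓ) →+ (JZero N ⧸ Kℓ) :=
    QuotientAddGroup.map Kℓ.toAddSubgroup Kℓ.toAddSubgroup
      (DistribSMul.toAddMonoidHom (JZero N) σ₀) hfrobK
  have hF : ∀ x : JZero N, F (Kℓ.mkQ x) = Kℓ.mkQ (σ₀ • x) := fun x => rfl
  refine ⟨JZero N ⧸ Kℓ, inferInstance, inferInstance, Kℓ.mkQ.toAddMonoidHom, F,
    ⟨fun T x => map_smul Kℓ.mkQ T x, ?_, ?_, ?_⟩, ?_⟩
  · intro σ hσ x
    refine (Submodule.Quotient.eq Kℓ).mpr fun T => ?_
    rw [smul_sub, ← smul_comm σ T x, map_sub, h.reduction_inertia hσ, sub_self]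
  · intro σ hσ x
    refine ((Submodule.Quotient.eq Kℓ).mpr fun T => ?_).trans (hF x).symm
    rw [smul_sub, ← smul_comm σ T x, ← smul_comm σ₀ T x, map_sub, h.reduction_frobenius hσ,
      h.reduction_frobenius hσ₀, residueAut_frobenius_eq hσ hσ₀, sub_self]
  · rintro x ⟨n, hn⟩ hx
    have hx' : x ∈ Kℓ := (Submodule.Quotient.mk_eq_zero Kℓ).mp hx
    refine h.injective (p ^ n) (fun hd => hℓp (dvd_mul_of_dvd_right
        (hℓ.dvd_of_dvd_pow hd) N)) x hn ?_
    simpa using hx' 1
  · intro y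
    obtain ⟨x, rfl⟩ := Submodule.Quotient.mk_surjective Kℓ y
    rw [← Submodule.mkQ_apply, hF, hF, ← map_smul, ← map_nsmul, ← map_sub, ← map_add,
      Submodule.mkQ_apply, Submodule.Quotient.mk_eq_zero]
    intro T
    rw [smul_add, smul_sub, smul_comm T (heckeGen ⟨ℓ, hℓ⟩), smul_comm T ℓ,
      ← smul_comm σ₀ T (σ₀ • x), ← smul_comm σ₀ T x, heckeModuleBar_heckeGen_smul hcomm,
      map_add, map_sub, map_nsmul, h.reduction_hecke hℓ hσ₀]
    abel

end Fermat.Agent.EichlerShimura
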