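import Fermat.Agent.EichlerShimura.Congruence
import Fermat.Agent.Grp.Index
import Fermat.Agent.Hecke.Inputs
import Fermat.Agent.Igusa.Degree
import Fermat.Agent.MF.Descent

/-!
# Conjugates of the field of level `N * ℓ` over `α`

From the modular equation: an embedding is determined by the image of `j(q^ℓ)`, and there are
`ℓ + 1` possibilities. These are the conjugates entering the norm in the congruence relation.
-/

noncomputable section

namespace Fermat.Agent.EichlerShimura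

open AlgebraicCurve ModularCurve
open Fermat.Agent.Igusa (jv evalAt evalIn IsModPoly)

variable {L : Type*} [Field L]

/-- Constants of Laurent series via `algebraMap`. -/
theorem C_eq_algebraMap (a : L) :
    (HahnSeries.C a : LaurentSeries L) = algebraMap L (LaurentSeries L) a := by
  rw [algebraMap_laurentSeries_eq_single, HahnSeries.C_apply]

/-- If the value of a ring map lands in a series field at `jv`, a modular neighbour is sent to a
modular neighbour. -/
theorem isRoot_of_hom {X : IntermediateField L (LaurentSeries L)} {Ω : Type*} [Field Ω]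
    (ι : LaurentSeries L →+* Ω) (ψ : X →+* Ω)
    (hψC : ∀ a : L, ψ (algebraMap L X a) = ι (HahnSeries.C a)) {r : ℕ} [Fact r.Prime]
    {Φ : Polynomial (Polynomial L)} (hΦ : IsModPoly r Φ) {m : ℕ} (hm : m ≠ 0)
    (hx : jv (1 : Lˣ) m ∈ X) (hy : jv (1 : Lˣ) (m * r) ∈ X) {v : LaurentSeries L}
    (hv : ψ ⟨_, hx⟩ = ι v) :
    ((Φ.map (evalAt v)).map ι).IsRoot (ψ ⟨_, hy⟩) := by
  have hev : (Φ.map (evalIn X hx)).eval ⟨_, hy⟩ = 0 := by
    refine (algebraMap X (LaurentSeries L)).injective ?_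
    rw [map_zero, ← Polynomial.eval_map_apply, Igusa.map_evalIn_map]
    exact Igusa.isModPoly_root_up hΦ hm
  have hcomp : ψ.comp (evalIn X hx) = ι.comp (evalAt v) := by
    refine Polynomial.ringHom_ext (fun a => ?_) ?_
    · simp only [RingHom.comp_apply, Igusa.evalAt_C, ← hψC]
      simp [evalIn]
    · simp only [RingHom.comp_apply, Igusa.evalAt_X, ← hv]
      simp [evalIn]
  have := congrArg ψ hev
  rwa [map_zero, ← Polynomial.eval_map_apply, Polynomial.map_map, hcomp,
    ← Polynomial.map_map] at this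

/-- The values of `sub 1 r` on a root of the modular equation of level `r` at `jv c m`. -/
theorem root_cases {r : ℕ} [Fact r.Prime] {Φ : Polynomial (Polynomial L)} (hΦ : IsModPoly r Φ)
    {c : Lˣ} {m : ℕ} (hm : m ≠ 0) {y : LaurentSeries L}
    (hy : (Φ.map (evalAt (jv c m))).IsRoot y) :
    Igusa.sub (1 : Lˣ) r y = jv (c ^ r) (r * r * m) ∨
      ∃ η : Lˣ, η ^ r = c ∧ Igusa.sub (1 : Lˣ) r y = jv η m := by
  have hr0 : r ≠ 0 := (Fact.out : r.Prime).ne_zero
  have h : (Φ.map (evalAt (jv c (r * m)))).IsRoot (Igusa.sub (1 : Lˣ) r y) := by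
    have h' := congrArg (Igusa.sub (1 : Lˣ) r) hy
    rw [map_zero, ← Polynomial.eval_map_apply, Polynomial.map_map, Igusa.sub_evalAt 1 hr0,
      Igusa.sub_jv 1 c hr0 hm, one_pow, mul_one] at h'
    exact h'
  exact (hΦ.isRoot_iff c m hm _).mp h

/-- A root of the modular equation in an overfield is one of the expected neighbours. -/
theorem eq_of_isRoot_map [IsAlgClosed L] {Ω : Type*} [Field Ω] (ι : LaurentSeries L →+* Ω)
    {p : ℕ} [Fact p.Prime] {Φ : Polynomial (Polynomial L)} (hΦ : IsModPoly p Φ) {m : ℕ}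
    (hm : m ≠ 0) {z : Ω} (hz : ((Φ.map (evalAt (jv (1 : Lˣ) (p * m)))).map ι).IsRoot z) :
    ∃ y, z = ι y ∧ (y = jv (1 : Lˣ) (p * p * m) ∨ ∃ η : Lˣ, η ^ p = 1 ∧ y = jv η m) := by
  have hne : Φ.map (evalAt (jv (1 : Lˣ) (p * m))) ≠ 0 := (Igusa.map_evalAt_monic hΦ _).ne_zero
  have hmem : z ∈ ((Φ.map (evalAt (jv (1 : Lˣ) (p * m)))).map ι).roots :=
    (Polynomial.mem_roots (Polynomial.map_ne_zero hne)).mpr hz
  rw [(hΦ.splits 1 m hm).roots_map] at hmem
  obtain ⟨y, hy, rfl⟩ := Multiset.mem_map.mp hmem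
  rw [Polynomial.mem_roots hne, hΦ.isRoot_iff 1 m hm, one_pow] at hy
  exact ⟨y, rfl, hy⟩

variable (L) in
/-- The element of the field of level `M` given by `j(q^d)`. -/
def jElem (M d : ℕ) [NeZero d] (hd : d ∣ M) [Algebra ℚ L] :
    laurentBaseChange L (modularFunctionFieldFull M) :=
  ⟨jv (1 : Lˣ) d, by
    rw [MF.laurentBaseChange_full_eq, Igusa.jv_one_eq_qExpand]
    exact jqModCd_mem_full L M hd⟩

variable [Algebra ℚ L]

/-- Ring maps on the function field agree if they agree on constants and generators. -/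
theorem hom_ext_of_generators {S : Type*} [Field S] {M : ℕ}
    {f g : laurentBaseChange L (modularFunctionFieldFull M) →+* S}
    (hC : ∀ a : L, f (algebraMap L _ a) = g (algebraMap L _ a))
    (hj : ∀ (d : ℕ) [NeZero d] (hd : d ∣ M), f (jElem L M d hd) = g (jElem L M d hd)) : f = g := by
  have key : ∀ x, x ∈ modularFunctionFieldFullC L M →
      ∀ h : x ∈ laurentBaseChange L (modularFunctionFieldFull M), f ⟨x, h⟩ = g ⟨x, h⟩ := by
    intro x hx
    have hx' : x ∈ Subfield.closure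
      (Set.range (algebraMap L (LaurentSeries L)) ∪ divisorExpansionsC L M) := hx
    have hle : ∀ y, y ∈ Subfield.closure
        (Set.range (algebraMap L (LaurentSeries L)) ∪ divisorExpansionsC L M) →
        y ∈ laurentBaseChange L (modularFunctionFieldFull M) := fun y hy => by
      rw [MF.laurentBaseChange_full_eq]; exact hy
    clear hx
    induction hx' using Subfield.closure_induction with
    | mem y hy =>
      intro h
      rcases hy with ⟨a, rfl⟩ | ⟨d, hne, hd, rfl⟩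
      · exact hC a
      · have := hne
        have : (⟨_, h⟩ : laurentBaseChange L (modularFunctionFieldFull M)) = jElem L M d hd :=
          Subtype.ext (Igusa.jv_one_eq_qExpand (R := L) d).symm
        rw [this]; exact hj d hd
    | one => intro h; exact (map_one f).trans (map_one g).symm
    | add x y hx hy ihx ihy =>
      intro h
      have : (⟨x + y, h⟩ : laurentBaseChange L (modularFunctionFieldFull M)) =
          ⟨x, hle x hx⟩ + ⟨y, hle y hy⟩ := rfl
      rw [this, map_add, map_add, ihx, ihy]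
    | neg x hx ihx =>
      intro h
      have : (⟨-x, h⟩ : laurentBaseChange L (modularFunctionFieldFull M)) = -⟨x, hle x hx⟩ := rfl
      rw [this, map_neg, map_neg, ihx]
    | inv x hx ihx =>
      intro h
      have : (⟨x⁻¹, h⟩ : laurentBaseChange L (modularFunctionFieldFull M)) =
          (⟨x, hle x hx⟩)⁻¹ := rfl
      rw [this, map_inv₀, map_inv₀, ihx]
    | mul x y hx hy ihx ihy =>
      intro h
      have : (⟨x * y, h⟩ : laurentBaseChange L (modularFunctionFieldFull M)) =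
          ⟨x, hle x hx⟩ * ⟨y, hle y hy⟩ := rfl
      rw [this, map_mul, map_mul, ihx, ihy]
  refine RingHom.ext fun ⟨x, hx⟩ => key x ?_ hx
  rwa [← MF.laurentBaseChange_full_eq]

variable {N ℓ : ℕ} [NeZero N] [NeZero ℓ]

/-- `α` keeps `j(q^d)`. -/
theorem alpha_jElem {d : ℕ} [NeZero d] (hd : d ∣ N) :
    heckeAlphaBar L N ℓ (jElem L N d hd) = jElem L (N * ℓ) d (hd.mul_right ℓ) :=
  Subtype.ext rfl

omit [NeZero N] in
/-- `β` sends `j(q^d)` to `j(q^(dℓ))`. -/
theorem beta_jElem {d : ℕ} [NeZero d] (hd : d ∣ N) :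
    heckeBetaBar L N ℓ (jElem L N d hd) = jElem L (N * ℓ) (d * ℓ) (mul_dvd_mul_right hd ℓ) := by
  refine Subtype.ext ?_
  rw [coe_heckeBetaBar]
  show qExpand L ℓ (jv (1 : Lˣ) d) = jv (1 : Lˣ) (d * ℓ)
  rw [← Igusa.sub_one_eq, Igusa.sub_jv 1 1 (NeZero.ne ℓ) (NeZero.ne d), one_pow, one_mul,
    mul_comm ℓ d]

/-- The arithmetic excluding a second neighbour in the induction on the divisor. -/
theorem mul_ne_of_level_cases {r q d' m₀ x : ℕ} (hr : r.Prime) (hrq : r ≠ q) (hd' : d' ≠ 0)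
    (hq : q ≠ 0) (hm₀ : m₀ = 1 ∨ m₀ = q * q) (hx : x = q * q * (r * d') ∨ x = r * d') :
    r * x ≠ d' * m₀ := by
  intro h
  rcases hx with rfl | rfl <;> rcases hm₀ with rfl | rfl
  · have h3 : (r * (r * (q * q))) * d' = 1 * d' := by linarith
    exact hr.ne_one (Nat.eq_one_of_mul_eq_one_right
      (Nat.eq_of_mul_eq_mul_right (Nat.pos_of_ne_zero hd') h3))
  · have h3 : (r * r) * (d' * (q * q)) = 1 * (d' * (q * q)) := by linarith
    exact hr.ne_one (Nat.eq_one_of_mul_eq_one_right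
      (Nat.eq_of_mul_eq_mul_right (Nat.pos_of_ne_zero (by positivity)) h3))
  · have h3 : (r * r) * d' = 1 * d' := by linarith
    exact hr.ne_one (Nat.eq_one_of_mul_eq_one_right
      (Nat.eq_of_mul_eq_mul_right (Nat.pos_of_ne_zero hd') h3))
  · have h3 : (r * r) * d' = (q * q) * d' := by linarith
    exact hrq (Nat.mul_self_inj.mp (Nat.eq_of_mul_eq_mul_right (Nat.pos_of_ne_zero hd') h3))

variable [IsAlgClosed L] [hℓ : Fact ℓ.Prime]

section Determine

variable {φ : laurentBaseChange L (modularFunctionFieldFull (N * ℓ)) →+* LaurentSeries L}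
  (hα : ∀ x, φ (heckeAlphaBar L N ℓ x) = qExpand L ℓ (x : LaurentSeries L))

omit [IsAlgClosed L] hℓ in
include hα in
/-- A map agreeing with `α` knows the images of `j(q^d)`, `d ∣ N`. -/
theorem map_jElem_of_alpha {d : ℕ} [NeZero d] (hd : d ∣ N) :
    φ (jElem L (N * ℓ) d (hd.mul_right ℓ)) = jv (1 : Lˣ) (ℓ * d) := by
  rw [← alpha_jElem hd, hα]
  show qExpand L ℓ (jv (1 : Lˣ) d) = _
  rw [← Igusa.sub_one_eq, Igusa.sub_jv 1 1 (NeZero.ne ℓ) (NeZero.ne d), one_pow, one_mul]

omit [IsAlgClosed L] hℓ in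
include hα in
/-- A map agreeing with `α` fixes constants. -/
theorem map_algebraMap_of_alpha (a : L) :
    φ (algebraMap L _ a) = HahnSeries.C a := by
  rw [← (heckeAlphaBar L N ℓ).commutes a, hα, C_eq_algebraMap]
  show qExpand L ℓ (algebraMap L (LaurentSeries L) a) = _
  rw [algebraMap_laurentSeries_eq_single, qExpand_single, mul_zero]

variable {Φ : Polynomial (Polynomial L)} (hΦ : IsModPoly ℓ Φ)

omit [IsAlgClosed L] in
include hα hΦ in
/-- The two kinds of possible image of `j(q^(dℓ))`. -/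
theorem map_beta_jElem_cases {d : ℕ} [NeZero d] (hd : d ∣ N) :
    φ (heckeBetaBar L N ℓ (jElem L N d hd)) = jv (1 : Lˣ) (ℓ * ℓ * d) ∨
      ∃ η : Lˣ, η ^ ℓ = 1 ∧ φ (heckeBetaBar L N ℓ (jElem L N d hd)) = jv η d := by
  rw [beta_jElem hd]
  have h := isRoot_of_hom (RingHom.id _) φ (map_algebraMap_of_alpha hα) hΦ (NeZero.ne d)
    (hx := (jElem L (N * ℓ) d (hd.mul_right ℓ)).2)
    (hy := (jElem L (N * ℓ) (d * ℓ) (mul_dvd_mul_right hd ℓ)).2) (v := jv 1 (ℓ * d))
    (map_jElem_of_alpha hα hd)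
  rw [Polynomial.map_id] at h
  exact (hΦ.isRoot_iff 1 d (NeZero.ne d) _).mp h |>.imp (fun e => by rw [one_pow] at e; exact e) id

omit [IsAlgClosed L] in
include hα hΦ in
/-- An embedding is determined by the image of `j(q^ℓ)`. -/
theorem map_beta_jElem_eq (hℓN : ¬ ℓ ∣ N) (hmod : ∀ r : ℕ, ∀ [Fact r.Prime],
      ∃ Ψ : Polynomial (Polynomial L), IsModPoly r Ψ)
    {c : Lˣ} {m₀ : ℕ} (hm₀ : m₀ = 1 ∨ m₀ = ℓ * ℓ)
    (h1 : φ (heckeBetaBar L N ℓ (jElem L N 1 (one_dvd N))) = jv c m₀) :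
    ∀ (d : ℕ) [NeZero d] (hd : d ∣ N),
      φ (heckeBetaBar L N ℓ (jElem L N d hd)) = jv (c ^ d) (d * m₀) := by
  intro d
  induction d using Nat.strong_induction_on with
  | _ d ih =>
  intro _ hd
  rcases eq_or_ne d 1 with rfl | hd1
  · rw [pow_one, one_mul]; exact h1
  obtain ⟨r, hr, d', rfl⟩ := Nat.exists_prime_and_dvd hd1
  have : Fact r.Prime := ⟨hr⟩
  have hd'0 : d' ≠ 0 := right_ne_zero_of_mul (NeZero.ne (r * d'))
  have : NeZero d' := ⟨hd'0⟩
  have hd' : d' ∣ N := (dvd_mul_left d' r).trans hd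
  have hr0 : r ≠ 0 := hr.ne_zero
  have hrℓ : r ≠ ℓ := fun h => hℓN (h ▸ (dvd_mul_right r d').trans hd)
  have hIH := ih d' (by nlinarith [hr.two_le, Nat.pos_of_ne_zero hd'0]) hd'
  have hm0' : d' * m₀ ≠ 0 := mul_ne_zero hd'0 (by
    rcases hm₀ with h | h <;> rw [h] <;> simp [NeZero.ne ℓ])
  obtain ⟨Ψ, hΨ⟩ := hmod r
  set ψ := φ.comp (heckeBetaBar L N ℓ).toRingHom with hψ
  have hψC : ∀ a : L, ψ (algebraMap L _ a) = RingHom.id _ (HahnSeries.C a) := fun a => by
    show φ (heckeBetaBar L N ℓ (algebraMap L _ a)) = _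
    rw [(heckeBetaBar L N ℓ).commutes]
    exact map_algebraMap_of_alpha hα a
  have hy' : jv (1 : Lˣ) (d' * r) ∈ laurentBaseChange L (modularFunctionFieldFull N) := by
    rw [mul_comm]; exact (jElem L N (r * d') hd).2
  have h := isRoot_of_hom (RingHom.id _) ψ hψC hΨ hd'0 (hx := (jElem L N d' hd').2) (hy := hy')
    (v := jv (c ^ d') (d' * m₀)) hIH
  rw [Polynomial.map_id, show (⟨_, hy'⟩ : laurentBaseChange L (modularFunctionFieldFull N)) =
    jElem L N (r * d') hd from
      Subtype.ext (show jv (1 : Lˣ) (d' * r) = jv (1 : Lˣ) (r * d') by rw [mul_comm])] at h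
  refine Igusa.sub_injective (1 : Lˣ) hr0 ?_
  rw [Igusa.sub_jv 1 _ hr0 (mul_ne_zero (NeZero.ne (r * d'))
    (right_ne_zero_of_mul hm0')), one_pow, mul_one]
  rcases root_cases hΨ hm0' h with e | ⟨η, -, e⟩
  · rw [hψ] at e
    refine e.trans ?_
    rw [← pow_mul, mul_comm d' r, show r * r * (d' * m₀) = r * (r * d' * m₀) by ring]
  exfalso
  have e' : ∀ (η' : Lˣ) (x : ℕ), x ≠ 0 →
      φ (heckeBetaBar L N ℓ (jElem L N (r * d') hd)) = jv η' x → r * x = d' * m₀ := by
    intro η' x hx hval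
    have := e
    rw [hψ] at this
    simp only [RingHom.comp_apply] at this
    rw [show (heckeBetaBar L N ℓ).toRingHom (jElem L N (r * d') hd) =
      heckeBetaBar L N ℓ (jElem L N (r * d') hd) from rfl, hval,
      Igusa.sub_jv 1 _ hr0 hx] at this
    exact ((Igusa.jv_inj (mul_ne_zero hr0 hx) hm0').mp this).2
  have hne := fun x => mul_ne_of_level_cases (x := x) hr hrℓ hd'0 (NeZero.ne ℓ) hm₀
  rcases map_beta_jElem_cases hα hΦ hd with hA | ⟨η', -, hB⟩
  · exact hne _ (Or.inl rfl) (e' 1 _ (mul_ne_zero (mul_ne_zero (NeZero.ne ℓ) (NeZero.ne ℓ))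
      (NeZero.ne (r * d'))) hA)
  · exact hne _ (Or.inr rfl) (e' η' _ (NeZero.ne (r * d')) hB)

omit [IsAlgClosed L] in
include hα hΦ in
/-- On the field of level `N` embedded by `β`, the map is a substitution. -/
theorem map_beta_eq_sub (hℓN : ¬ ℓ ∣ N) (hmod : ∀ r : ℕ, ∀ [Fact r.Prime],
      ∃ Ψ : Polynomial (Polynomial L), IsModPoly r Ψ)
    {c : Lˣ} {m₀ : ℕ} (hm₀ : m₀ = 1 ∨ m₀ = ℓ * ℓ)
    (h1 : φ (heckeBetaBar L N ℓ (jElem L N 1 (one_dvd N))) = jv c m₀)
    (x : laurentBaseChange L (modularFunctionFieldFull N)) :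
    φ (heckeBetaBar L N ℓ x) = Igusa.sub c m₀ (x : LaurentSeries L) := by
  have hm : m₀ ≠ 0 := by rcases hm₀ with h | h <;> rw [h] <;> simp [NeZero.ne ℓ]
  have key : φ.comp (heckeBetaBar L N ℓ).toRingHom = (Igusa.sub c m₀).comp
      (algebraMap (laurentBaseChange L (modularFunctionFieldFull N)) (LaurentSeries L)) := by
    refine hom_ext_of_generators (fun a => ?_) (fun d _ hd => ?_)
    · show φ (heckeBetaBar L N ℓ (algebraMap L _ a)) =
        Igusa.sub c m₀ (algebraMap L (LaurentSeries L) a)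
      rw [(heckeBetaBar L N ℓ).commutes, map_algebraMap_of_alpha hα, ← C_eq_algebraMap,
          Igusa.sub_C c hm]
    · show φ (heckeBetaBar L N ℓ (jElem L N d hd)) = Igusa.sub c m₀ (jv (1 : Lˣ) d)
      rw [map_beta_jElem_eq hα hΦ hℓN hmod hm₀ h1 d hd, Igusa.sub_jv c 1 hm (NeZero.ne d), one_mul,
        mul_comm m₀ d]
  exact RingHom.congr_fun key x

end Determine

end Fermat.Agent.EichlerShimura
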