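import Fermat.Agent.EichlerShimura.Embeddings

/-!
# `HeckeEmbeddings` in characteristic zero

Over every algebraically closed field of characteristic zero the field of level `N * ℓ` has over `α`
exactly the `ℓ + 1` expected embeddings into Laurent series, as required for the congruence
relation.
-/

noncomputable section

namespace Fermat.Agent.EichlerShimura

open AlgebraicCurve ModularCurve CongruenceSubgroup
open Fermat.Agent.Igusa (jv evalAt IsModPoly)

/-- `Γ₀(Nℓ)` has index `ℓ + 1` in `Γ₀(N)` for `ℓ ∤ N`. -/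
theorem relIndex_Gamma0_prime {N ℓ : ℕ} [NeZero N] [NeZero ℓ] (hℓ : ℓ.Prime) (h : ¬ ℓ ∣ N) :
    (Gamma0 (N * ℓ)).relIndex (Gamma0 N) = ℓ + 1 := by
  have hcop : Nat.Coprime N ℓ := ((Nat.Prime.coprime_iff_not_dvd hℓ).mpr h).symm
  have hmul := Subgroup.relIndex_mul_index (MF.Gamma0_le_of_dvd (dvd_mul_right N ℓ))
  have hNℓ : (Gamma0 (N * ℓ)).index = (Gamma0 N).index * (Gamma0 ℓ).index :=
    Grp.natCard_coset_mul hcop
  rw [hNℓ, Grp.index_Gamma0_eq ℓ] at hmul
  have hψ : dedekindPsi ℓ = ℓ + 1 := by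
    have := Grp.dedekindPsi_prime_pow hℓ one_pos
    rwa [pow_one, Nat.sub_self, pow_zero] at this
  rw [hψ, mul_comm (Gamma0 N).index] at hmul
  exact Nat.eq_of_mul_eq_mul_right (Nat.pos_of_ne_zero Subgroup.FiniteIndex.index_ne_zero) hmul

/-- A ring map with values in the image of an embedding factors through it. -/
theorem exists_ringHom_lift {A B C : Type*} [Field A] [Field B] [Field C] (e : A →+* C)
    (ι : B →+* C) (h : ∀ x, ∃ y, ι y = e x) : ∃ φ : A →+* B, ι.comp φ = e :=
  ⟨{ toFun := fun x => (h x).choose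
     map_one' := ι.injective (by rw [(h 1).choose_spec, map_one, map_one])
     map_mul' := fun x y => ι.injective (by
       rw [map_mul ι, (h _).choose_spec, (h x).choose_spec, (h y).choose_spec, map_mul])
     map_zero' := ι.injective (by rw [(h 0).choose_spec, map_zero, map_zero])
     map_add' := fun x y => ι.injective (by
       rw [map_add ι, (h _).choose_spec, (h x).choose_spec, (h y).choose_spec, map_add]) },
   RingHom.ext fun x => (h x).choose_spec⟩

/-- A full family of extensions of an embedding, indexed by an invariant of extensions. -/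
theorem exists_full_family {F F' B : Type*} [Field F] [Field F'] [Field B] [Algebra F F']
    [FiniteDimensional F F'] [Algebra.IsSeparable F F'] (b : F →+* B) {I : Type*} [Fintype I]
    (P : (F' →+* B) → I → Prop) (hcard : Module.finrank F F' = Fintype.card I)
    (hlift : ∀ e : F' →+* AlgebraicClosure B,
      (∀ x, e (algebraMap F F' x) = algebraMap B (AlgebraicClosure B) (b x)) →
        ∀ z, ∃ y, algebraMap B (AlgebraicClosure B) y = e z)
    (hkey : ∀ φ : F' →+* B, (∀ x, φ (algebraMap F F' x) = b x) → ∃ i, P φ i)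
    (huniq : ∀ (φ φ' : F' →+* B) (i : I), (∀ x, φ (algebraMap F F' x) = b x) →
      (∀ x, φ' (algebraMap F F' x) = b x) → P φ i → P φ' i → φ = φ') :
    ∃ Φ : I → (F' →+* B), ∀ i, (∀ x, Φ i (algebraMap F F' x) = b x) ∧ P (Φ i) i := by
  classical
  let : Algebra F (AlgebraicClosure B) := ((algebraMap B (AlgebraicClosure B)).comp b).toAlgebra
  choose lift hl using fun e : F' →ₐ[F] AlgebraicClosure B =>
    exists_ringHom_lift e.toRingHom _ (hlift e.toRingHom e.commutes)
  have hlb : ∀ e x, lift e (algebraMap F F' x) = b x := fun e x =>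
    (algebraMap B (AlgebraicClosure B)).injective
      ((RingHom.congr_fun (hl e) _).trans (e.commutes x))
  choose key hk using fun e => hkey (lift e) (hlb e)
  have hinj : Function.Injective key := fun e e' he => by
    have h := huniq _ _ _ (hlb e) (hlb e') (hk e) (he ▸ hk e')
    refine AlgHom.ext fun x => ?_
    have h1 := RingHom.congr_fun (hl e) x
    have h2 := RingHom.congr_fun (hl e') x
    rw [h] at h1
    exact h1.symm.trans h2
  have hbij : Function.Bijective key := (Fintype.bijective_iff_injective_and_card key).mpr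
    ⟨hinj, by rw [AlgHom.card]; exact hcard⟩
  choose inv hinv using hbij.2
  exact ⟨fun i => lift (inv i), fun i => ⟨hlb _, by simpa [hinv] using hk (inv i)⟩⟩

variable {L : Type*} [Field L] [Algebra ℚ L]

/-- A subfield containing constants and generators is everything. -/
theorem mem_of_generators {M : ℕ} (S : Subfield (laurentBaseChange L (modularFunctionFieldFull M)))
    (hC : ∀ a : L, algebraMap L _ a ∈ S)
    (hj : ∀ (d : ℕ) [NeZero d] (hd : d ∣ M), jElem L M d hd ∈ S)
    (x : laurentBaseChange L (modularFunctionFieldFull M)) : x ∈ S := by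
  have hle : Subfield.closure
      (Set.range (algebraMap L (LaurentSeries L)) ∪ divisorExpansionsC L M) ≤
      S.map (algebraMap (laurentBaseChange L (modularFunctionFieldFull M)) (LaurentSeries L)) := by
    refine Subfield.closure_le.mpr ?_
    rintro y (⟨a, rfl⟩ | ⟨d, hne, hd, rfl⟩)
    · exact ⟨_, hC a, rfl⟩
    · have := hne
      exact ⟨_, hj d hd, Igusa.jv_one_eq_qExpand (R := L) d⟩
  have hmem : (x : LaurentSeries L) ∈ modularFunctionFieldFullC L M := by
    rw [← MF.laurentBaseChange_full_eq]; exact x.2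
  obtain ⟨y, hy, hyx⟩ := Subfield.mem_map.mp (hle hmem)
  exact (show y = x from Subtype.ext hyx) ▸ hy

variable [CharZero L] [IsAlgClosed L]
variable {N ℓ : ℕ} [NeZero N] [NeZero ℓ]

/-- The exponent of the `i`th conjugate. -/
def conjExp (ℓ : ℕ) : Option (Fin ℓ) → ℕ
  | none => ℓ * ℓ
  | some _ => 1

/-- The unit of the `i`th conjugate. -/
def conjUnit (ζ : Lˣ) : Option (Fin ℓ) → Lˣ
  | none => 1
  | some b => ζ ^ (b : ℕ)

omit [Algebra ℚ L] [CharZero L] [IsAlgClosed L] in
/-- Substituting at exponent `1` is twisting. -/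
theorem sub_one (c : Lˣ) (x : LaurentSeries L) : Igusa.sub c 1 x = twist c x := by
  rw [Igusa.sub_apply, qExpand_one_apply]
  ext n; simp

omit [NeZero N] [NeZero ℓ] [CharZero L] [IsAlgClosed L] in
/-- A divisor of `N * ℓ` divides `N` or is `ℓ` times a divisor of `N`. -/
theorem exists_right_of_dvd (hℓ : ℓ.Prime) {d : ℕ} [NeZero d] (hd : d ∣ N * ℓ) :
    d ∣ N ∨ ∃ d', d = d' * ℓ ∧ d' ∣ N := by
  by_cases hℓd : ℓ ∣ d
  · obtain ⟨d', rfl⟩ := hℓd
    exact Or.inr ⟨d', mul_comm _ _, Nat.dvd_of_mul_dvd_mul_left hℓ.pos (by rwa [mul_comm N] at hd)⟩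
  · exact Or.inl ((Nat.Coprime.dvd_mul_right ((hℓ.coprime_iff_not_dvd.mpr hℓd).symm)).mp hd)

variable [hℓ : Fact ℓ.Prime]

omit [CharZero L] in
/-- An embedding over `α` takes values in `L((t))`. -/
theorem exists_preimage_of_alpha {Φ : Polynomial (Polynomial L)} (hΦ : IsModPoly ℓ Φ)
    {Ω : Type*} [Field Ω] (ι : LaurentSeries L →+* Ω)
    (e : laurentBaseChange L (modularFunctionFieldFull (N * ℓ)) →+* Ω)
    (he : ∀ x, e (heckeAlphaBar L N ℓ x) = ι (qExpand L ℓ (x : LaurentSeries L)))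
    (z : laurentBaseChange L (modularFunctionFieldFull (N * ℓ))) : ∃ y, ι y = e z := by
  have heC : ∀ a : L, e (algebraMap L _ a) = ι (HahnSeries.C a) := fun a => by
    rw [← (heckeAlphaBar L N ℓ).commutes a, he, C_eq_algebraMap]
    show ι (qExpand L ℓ (algebraMap L (LaurentSeries L) a)) = _
    rw [algebraMap_laurentSeries_eq_single, qExpand_single, mul_zero]
  have hleft : ∀ (d : ℕ) [NeZero d] (hd : d ∣ N),
      e (jElem L (N * ℓ) d (hd.mul_right ℓ)) = ι (jv (1 : Lˣ) (ℓ * d)) := by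
    intro d _ hd
    rw [← alpha_jElem hd, he]
    show ι (qExpand L ℓ (jv (1 : Lˣ) d)) = _
    rw [← Igusa.sub_one_eq, Igusa.sub_jv 1 1 (NeZero.ne ℓ) (NeZero.ne d), one_pow, one_mul]
  refine mem_of_generators (ι.fieldRange.comap e) (fun a => ⟨_, (heC a).symm⟩) ?_ z
  intro d _ hd
  rcases exists_right_of_dvd hℓ.out hd with hd' | ⟨d', rfl, hd'⟩
  · exact ⟨_, (hleft d hd').symm⟩
  · have : NeZero d' := ⟨left_ne_zero_of_mul (NeZero.ne (d' * ℓ))⟩
    have hroot := isRoot_of_hom ι e heC hΦ (NeZero.ne d')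
      (hx := (jElem L (N * ℓ) d' (hd'.mul_right ℓ)).2) (hy := (jElem L (N * ℓ) (d' * ℓ) hd).2)
      (v := jv 1 (ℓ * d')) (hleft d' hd')
    obtain ⟨y, hy, -⟩ := eq_of_isRoot_map ι hΦ (NeZero.ne d') hroot
    exact ⟨y, hy.symm⟩

omit [IsAlgClosed L] [CharZero L] in
/-- A map agreeing with `α` sends `j(q^ℓ)` to one of the `ℓ + 1` conjugates. -/
theorem exists_conjIndex {Φ : Polynomial (Polynomial L)} (hΦ : IsModPoly ℓ Φ) {ζ : Lˣ}
    (hζ : IsPrimitiveRoot ζ ℓ)
    (φ : laurentBaseChange L (modularFunctionFieldFull (N * ℓ)) →+* LaurentSeries L)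
    (hα : ∀ x, φ (heckeAlphaBar L N ℓ x) = qExpand L ℓ (x : LaurentSeries L)) :
    ∃ i : Option (Fin ℓ), φ (heckeBetaBar L N ℓ (jElem L N 1 (one_dvd N))) =
      jv (conjUnit ζ i) (conjExp ℓ i) := by
  rcases map_beta_jElem_cases hα hΦ (one_dvd N) with h | ⟨η, hη, h⟩
  · exact ⟨none, by rw [h, mul_one]; rfl⟩
  · obtain ⟨i, hi, hiη⟩ := (IsPrimitiveRoot.coe_units_iff.mpr hζ).eq_pow_of_pow_eq_one
      (ξ := (η : L)) (by rw [← Units.val_pow_eq_pow_val, hη, Units.val_one])
    refine ⟨some ⟨i, hi⟩, h.trans ?_⟩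
    show jv η 1 = jv (ζ ^ i) 1
    rw [show η = ζ ^ i from Units.ext (by rw [Units.val_pow_eq_pow_val]; exact hiη.symm)]

theorem conjExp_cases (ℓ : ℕ) (i : Option (Fin ℓ)) : conjExp ℓ i = 1 ∨ conjExp ℓ i = ℓ * ℓ := by
  rcases i with _ | b
  · exact Or.inr rfl
  · exact Or.inl rfl

theorem conjExp_ne_zero {ℓ : ℕ} [NeZero ℓ] (i : Option (Fin ℓ)) : conjExp ℓ i ≠ 0 := by
  rcases i with _ | b <;> simp [conjExp, NeZero.ne ℓ]

/-- The conjugates of the field of level `N * ℓ` over `α`. -/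
theorem heckeEmbeddings_of_prime (hℓN : ¬ ℓ ∣ N) (ζ : Lˣ) (hζ : IsPrimitiveRoot ζ ℓ) :
    HeckeEmbeddings L N ℓ ζ := by
  have hdeg : finrankAlong L (heckeAlphaBar L N ℓ) = ℓ + 1 := by
    rw [Hecke.finrankAlong_alpha, relIndex_Gamma0_prime hℓ.out hℓN]
  have hmod : ∀ r : ℕ, ∀ [Fact r.Prime], ∃ Ψ : Polynomial (Polynomial L), IsModPoly r Ψ :=
    fun r hr => Igusa.exists_isModPoly (Nat.cast_ne_zero.mpr hr.out.ne_zero)
  obtain ⟨Φ, hΦ⟩ := hmod ℓ
  have hfin := Hecke.finiteAlong_alpha L N ℓ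
  have hsep := separableAlong_of_finiteAlong _ hfin
  let := algebraAlong (heckeAlphaBar L N ℓ)
  have : FiniteDimensional (laurentBaseChange L (modularFunctionFieldFull N))
      (laurentBaseChange L (modularFunctionFieldFull (N * ℓ))) := hfin
  have : Algebra.IsSeparable (laurentBaseChange L (modularFunctionFieldFull N))
      (laurentBaseChange L (modularFunctionFieldFull (N * ℓ))) := hsep
  obtain ⟨fam, hfam⟩ := exists_full_family
    ((qExpand L ℓ).comp (algebraMap (laurentBaseChange L (modularFunctionFieldFull N))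
        (LaurentSeries L)))
    (fun φ i => φ (heckeBetaBar L N ℓ (jElem L N 1 (one_dvd N))) =
      jv (conjUnit ζ i) (conjExp ℓ i))
    (by rw [Fintype.card_option, Fintype.card_fin]; exact hdeg)
    (fun e he => exists_preimage_of_alpha hΦ _ e he)
    (fun φ hα => exists_conjIndex hΦ hζ φ hα)
    (fun φ φ' i hα hα' h h' => by
      refine hom_ext_of_generators (fun a => ?_) (fun d _ hd => ?_)
      · rw [map_algebraMap_of_alpha hα, map_algebraMap_of_alpha hα']
      · rcases exists_right_of_dvd hℓ.out hd with hd' | ⟨d', rfl, hd'⟩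
        · rw [map_jElem_of_alpha hα hd', map_jElem_of_alpha hα' hd']
        · have : NeZero d' := ⟨left_ne_zero_of_mul (NeZero.ne (d' * ℓ))⟩
          rw [← beta_jElem hd', map_beta_eq_sub hα hΦ hℓN hmod (conjExp_cases ℓ i) h,
            map_beta_eq_sub hα' hΦ hℓN hmod (conjExp_cases ℓ i) h'])
  refine ⟨hdeg.le, fam, fun i j hij => ?_, fun i x => (hfam i).1 x, fun x => ?_, fun b x => ?_⟩
  · have h1 := (hfam i).2
    rw [hij, (hfam j).2] at h1
    obtain ⟨hu, hm⟩ := (Igusa.jv_inj (conjExp_ne_zero j) (conjExp_ne_zero i)).mp h1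
    have h4 : ℓ * ℓ ≠ 1 := fun h => hℓ.out.ne_one (Nat.eq_one_of_mul_eq_one_right h)
    rcases i with _ | a <;> rcases j with _ | b
    · rfl
    · exact absurd hm.symm h4
    · exact absurd hm h4
    · exact congrArg some (Fin.ext (hζ.pow_inj a.2 b.2 hu.symm))
  · rw [map_beta_eq_sub (hfam none).1 hΦ hℓN hmod (conjExp_cases ℓ none) (hfam none).2]
    show Igusa.sub (1 : Lˣ) (ℓ * ℓ) _ = _
    rw [Igusa.sub_one_eq, qExpand_qExpand]
  · rw [map_beta_eq_sub (hfam (some b)).1 hΦ hℓN hmod (conjExp_cases ℓ (some b)) (hfam (some b)).2]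
    exact sub_one _ _

end Fermat.Agent.EichlerShimura
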