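import Fermat.Agent.EichlerShimura.Bounded
import Fermat.Agent.FF.RiemannRoch

/-!
# Representatives of bounded size

Riemann's inequality gives every divisor class of degree zero a representative of bounded size, the
hypothesis of the rigidity lemma.
-/

noncomputable section

namespace Fermat.Agent.EichlerShimura

open AlgebraicCurve

/-- Function fields over algebraically closed fields have bounded classes. -/
theorem boundedClasses_of_isFunctionField (K F : Type*) [Field K] [Field F] [Algebra K F]
    [IsAlgClosed K] [FF.IsFunctionField K F] : BoundedClasses K F := by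
  refine boundedClasses_of_exists_effective (fun P => FF.place_deg_eq_one P) ?_
    (genusFF K F) (fun D hD => ?_)
  · rintro D ⟨f, hf, hDf⟩
    rw [show D = FF.divOf (K := K) f from Finsupp.ext fun v =>
        (hDf v).trans (FF.divOf_apply f v).symm]
    exact FF.degree_divOf f
  · obtain ⟨f, hf, hfD⟩ := FF.exists_ne_zero_mem_of_genusFF_le hD
    rw [FF.mem_rrSpace_of_ord hf] at hfD
    refine ⟨D + FF.divOf f, fun v => ?_, ?_⟩
    · rw [Finsupp.add_apply, FF.divOf_apply]
      linarith [hfD v]
    · rw [sub_add_cancel_left]
      exact neg_mem (FF.divOf_mem_principal hf)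

end Fermat.Agent.EichlerShimura
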