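import Fermat.Agent.EichlerShimura.Core
import Fermat.Agent.EichlerShimura.EmbeddingsMain
import Fermat.Agent.EichlerShimura.Riemann
import Fermat.Agent.FF.Modular
import Fermat.Agent.Gal.Basic
import Fermat.Agent.Hecke.Inputs

/-!
# Existence of the specialisation of `J₀(N)`

`SpecializationExists` for `J₀(N)`, from the reduction inputs and the conjugates of the field of
level `N * ℓ`. This is the source of the Eichler–Shimura relation for Galois representations.
-/

noncomputable section

namespace Fermat.Agent.EichlerShimura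

open AlgebraicCurve ModularCurve

/-- The congruence relation in the prelude's packaged form, from its geometric inputs. -/
theorem specializationExists_of (N p : ℕ) [NeZero N] (hcomm : HeckeOperatorsCommuteBar N)
    (hR : ∀ ℓ : ℕ, ℓ.Prime → ¬ ℓ ∣ N → ∀ A : ValuationSubring (AlgebraicClosure ℚ),
      A.LiesOverPrime ℓ → ReductionInputsModL A N)
    (hinj : ∀ ℓ : ℕ, ℓ.Prime → ¬ ℓ ∣ N → ∀ A : ValuationSubring (AlgebraicClosure ℚ),
      A.LiesOverPrime ℓ → ReductionInputsModL A N → ∀ m : ℕ, ¬ ℓ ∣ m → ∀ z : JZero N,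
        m • z = 0 → reductionModL A N z = 0 → z = 0) :
    letI := heckeModuleBar N
    ∀ (_ : SMulCommClass (AlgebraicClosure ℚ ≃ₐ[ℚ] AlgebraicClosure ℚ) HeckeAlg (JZero N)),
      SpecializationExists (K := ℚ) (L := AlgebraicClosure ℚ) N p (JZero N) := by
  let := heckeModuleBar N
  intro hsc ℓ hℓ hℓp A hA
  have : NeZero ℓ := ⟨hℓ.ne_zero⟩
  have hℓN : ¬ ℓ ∣ N := fun h => hℓp (h.mul_right p)
  exact specialization_of_inputs p hcomm hℓ hℓp
    { red := hR ℓ hℓ hℓN A hA
      bounded := boundedClasses_of_isFunctionField _ _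
      deg_one := fun P => FF.place_deg_eq_one P
      hecke := Hecke.heckeInputsAlong_bar N ℓ
      embeddings := fun ζ hζ => @heckeEmbeddings_of_prime _ _ _ _ _ N ℓ _ _ ⟨hℓ⟩ hℓN ζ hζ
      charP := Gal.residueField_charP hℓ hA
      frobenius := Gal.exists_isFrobeniusAt hℓ hA
      injective := hinj ℓ hℓ hℓN A hA (hR ℓ hℓ hℓN A hA) } hsc

end Fermat.Agent.EichlerShimura
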